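import Fermat.Agent.ShiuBrun.Main
import Fermat.Agent.Forms3.RepresentationBound
import Fermat.Agent.ErdosKac.Mertens

/-!
# Powers of the divisor function in short intervals and progressions

Shiu's theorem for `τ ^ r`: `∑ τ n ^ r ≪ y / φ k · (log x) ^ (2 ^ r - 1)`, and for `τ` the sharper
`≪ φ k / k ^ 2 · y log x`.
-/

set_option autoImplicit false

noncomputable section

namespace FA.ShiuBrun

open Finset Filter
open FA.ErdosKac (primesUpTo mem_primesUpTo recipSum)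

theorem shiuClass_divisors_pow (r : ℕ) :
    ShiuClass fun n : ℕ => (#n.divisors : ℝ) ^ r where
  nonneg n := by positivity
  one := by simp
  mul m n h := by rw [h.card_divisors_mul, Nat.cast_mul, mul_pow]
  primePow := ⟨2 ^ r, one_le_pow₀ one_le_two, fun p l hp => by
    rw [Nat.divisors_prime_pow hp, card_map, card_range, ← pow_mul, mul_comm, pow_mul]
    refine pow_le_pow_left₀ (Nat.cast_nonneg _) ?_ r
    exact_mod_cast Nat.lt_two_pow_self (n := l)⟩
  growth ε hε := by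
    obtain ⟨D, hD1, hD⟩ := FA.RepresentationBound.card_divisors_isBigO (ε / (r + 1)) (by positivity)
    refine ⟨D ^ r, fun n hn => ?_⟩
    refine (pow_le_pow_left₀ (Nat.cast_nonneg _) (hD n hn.ne') r).trans ?_
    rw [mul_pow, ← Real.rpow_mul_natCast (Nat.cast_nonneg n)]
    refine mul_le_mul_of_nonneg_left ?_ (by positivity)
    refine Real.rpow_le_rpow_of_exponent_le (Nat.one_le_cast.2 hn) ?_
    rw [div_mul_eq_mul_div, div_le_iff₀ (by positivity)]
    linarith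

/-- `∏_{p ∣ k} e ^ (-1/p) ≤ e ^ 4 φ k / k`. -/
theorem exp_neg_sum_inv_le {k : ℕ} (hk : 0 < k) :
    Real.exp (-∑ p ∈ k.primeFactors, (p : ℝ)⁻¹) ≤ Real.exp 4 * ((k.totient : ℕ) / k) := by
  have hprod : ((k.totient : ℕ) : ℝ) / k = ∏ p ∈ k.primeFactors, ((p : ℝ) - 1) / p := by
    have h := congrArg (Nat.cast (R := ℝ)) (Nat.totient_mul_prod_primeFactors k)
    rw [Nat.cast_mul, Nat.cast_mul, Nat.cast_prod, Nat.cast_prod] at h
    rw [prod_div_distrib, div_eq_div_iff (Nat.cast_ne_zero.2 hk.ne')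
      (prod_ne_zero_iff.2 fun p hp =>
        Nat.cast_ne_zero.2 (Nat.prime_of_mem_primeFactors hp).ne_zero),
      h, mul_comm]
    congr 1
    exact prod_congr rfl fun p hp => by
      rw [Nat.cast_sub (Nat.prime_of_mem_primeFactors hp).one_lt.le, Nat.cast_one]
  have hsq : ∑ p ∈ k.primeFactors, 2 * ((p : ℝ) ^ 2)⁻¹ ≤ 4 := by
    rw [← mul_sum]
    have := (sum_le_sum_of_subset_of_nonneg (s := k.primeFactors) (t := Ioo 0 (k + 1))
      (f := fun p : ℕ => ((p : ℝ) ^ 2)⁻¹) (fun p hp => mem_Ioo.2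
        ⟨(Nat.prime_of_mem_primeFactors hp).pos, Nat.lt_succ_of_le (Nat.le_of_mem_primeFactors hp)⟩)
        fun p _ _ => by positivity).trans ((sum_Ioo_inv_sq_le 0 (k + 1)).trans_eq
          (show (2 : ℝ) / ((0 : ℕ) + 1) = 2 by norm_num))
    linarith
  rw [hprod]
  refine le_trans ?_ (mul_le_mul_of_nonneg_right (Real.exp_le_exp.2 hsq)
    (prod_nonneg fun p hp => ?_))
  · rw [Real.exp_sum, ← prod_mul_distrib, ← sum_neg_distrib, Real.exp_sum]
    refine prod_le_prod (fun p _ => (Real.exp_pos _).le) fun p hp => ?_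
    have hp1 : (2 : ℝ) ≤ p := Nat.ofNat_le_cast.2 (Nat.prime_of_mem_primeFactors hp).two_le
    obtain ⟨t, ht⟩ : ∃ t : ℝ, t = 1 / ((p : ℝ) - 1) := ⟨_, rfl⟩
    have h1 : Real.exp (-t) ≤ ((p : ℝ) - 1) / p := by
      rw [Real.exp_neg, inv_le_comm₀ (Real.exp_pos t) (div_pos (by linarith) (by linarith)),
        inv_div]
      refine le_trans (le_of_eq ?_) (Real.add_one_le_exp t)
      rw [ht, div_add_one (by linarith : (p : ℝ) - 1 ≠ 0)]
      ring
    have h2 : -(p : ℝ)⁻¹ ≤ 2 * ((p : ℝ) ^ 2)⁻¹ + -t := by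
      have e : 2 * ((p : ℝ) ^ 2)⁻¹ + (p : ℝ)⁻¹ - t =
          ((p : ℝ) - 2) / ((p : ℝ) ^ 2 * ((p : ℝ) - 1)) := by
        rw [ht]
        have : (p : ℝ) - 1 ≠ 0 := by linarith
        field_simp
        ring
      have : 0 ≤ ((p : ℝ) - 2) / ((p : ℝ) ^ 2 * ((p : ℝ) - 1)) :=
        div_nonneg (by linarith) (mul_nonneg (sq_nonneg _) (by linarith))
      linarith
    refine (Real.exp_le_exp.2 h2).trans ?_
    rw [Real.exp_add]
    exact mul_le_mul_of_nonneg_left h1 (Real.exp_pos _).le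
  · have h1 : (1 : ℝ) ≤ p := Nat.one_le_cast.2 (Nat.prime_of_mem_primeFactors hp).one_le
    exact div_nonneg (by linarith) (Nat.cast_nonneg p)

theorem primeSum_divisors_pow_le {C : ℝ}
    (hC : ∀ n : ℕ, 2 ≤ n → |recipSum n - Real.log (Real.log n)| ≤ C) (r : ℕ) {k x : ℕ}
    (hk : 0 < k) (hkx : k ≤ x) (hx : 2 ≤ x) :
    primeSum (fun n : ℕ => (#n.divisors : ℝ) ^ r) k x ≤
      2 ^ r * (Real.log (Real.log x) + C) - 2 ^ r * ∑ p ∈ k.primeFactors, (p : ℝ)⁻¹ := by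
  have hS : primeSum (fun n : ℕ => (#n.divisors : ℝ) ^ r) k x +
      2 ^ r * ∑ p ∈ k.primeFactors, (p : ℝ)⁻¹ ≤ 2 ^ r * recipSum x := by
    rw [primeSum, recipSum, ← sum_filter_add_sum_filter_not (primesUpTo x) (fun p => ¬ p ∣ k),
      mul_add, mul_sum, mul_sum, mul_sum]
    refine add_le_add (le_of_eq (sum_congr rfl fun p hp => ?_))
      (sum_le_sum_of_subset_of_nonneg (fun p hp => ?_) fun p _ _ => by positivity)
    · rw [(mem_primesUpTo.1 (mem_filter.1 hp).1).1.divisors,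
        card_pair (mem_primesUpTo.1 (mem_filter.1 hp).1).1.ne_one.symm, div_eq_mul_inv]
      push_cast
      rfl
    · obtain ⟨hp1, hp2, -⟩ := Nat.mem_primeFactors.1 hp
      exact mem_filter.2 ⟨mem_primesUpTo.2 ⟨hp1, (Nat.le_of_dvd hk hp2).trans hkx⟩,
        not_not.2 hp2⟩
  have h := mul_le_mul_of_nonneg_left (show recipSum x ≤ Real.log (Real.log x) + C by
    linarith [(abs_le.1 (hC x hx)).2]) (show (0 : ℝ) ≤ 2 ^ r by positivity)
  linarith

/-- **`τ ^ r` in short intervals and progressions.** -/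
theorem exists_sum_divisors_pow_le (r : ℕ) {α β : ℝ} (hα : 0 < α) (hα1 : α ≤ 1) (hβ : 0 < β) :
    ∃ C : ℝ, ∀ᶠ x : ℕ in atTop, ∀ y k a : ℕ, (x : ℝ) ^ β ≤ y → y ≤ x → 0 < k →
      (k : ℝ) ≤ (y : ℝ) ^ (1 - α) → a.Coprime k →
      ∑ n ∈ window x y k a, (#n.divisors : ℝ) ^ r ≤
        C * (((k.totient : ℕ) : ℝ) / k) ^ (2 ^ r) * (y / (k.totient : ℕ)) *
          Real.log x ^ (2 ^ r - 1) := by
  obtain ⟨C0, hC0⟩ := exists_shiu (shiuClass_divisors_pow r) hα hα1 hβ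
  obtain ⟨CM, hCM⟩ := FA.ErdosKac.exists_abs_recipSum_sub_le
  refine ⟨|C0| * Real.exp (2 ^ r * (CM + 4)), ?_⟩
  filter_upwards [hC0, eventually_ge_atTop 2] with x hx hx2 y k a hxy hyx hk hky ha
  have hlx : 0 < Real.log x := Real.log_pos (Nat.one_lt_cast.2 (by omega))
  have hy1 : (1 : ℝ) ≤ y := (Real.one_le_rpow (Nat.one_le_cast.2 (by omega)) hβ.le).trans hxy
  have hkx : k ≤ x := by
    refine le_trans (Nat.cast_le.1 (hky.trans ?_)) hyx
    exact (Real.rpow_le_rpow_of_exponent_le hy1 (by linarith)).trans_eq (Real.rpow_one _)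
  have htot : (0 : ℝ) < (k.totient : ℕ) := Nat.cast_pos.2 (Nat.totient_pos.2 hk)
  obtain ⟨P, hP⟩ : ∃ P : ℝ, P = ∑ p ∈ k.primeFactors, (p : ℝ)⁻¹ := ⟨_, rfl⟩
  have hexp : Real.exp (primeSum (fun n : ℕ => (#n.divisors : ℝ) ^ r) k x) ≤
      Real.log x ^ (2 ^ r) * (Real.exp (2 ^ r * (CM + 4)) *
        (((k.totient : ℕ) : ℝ) / k) ^ (2 ^ r)) := by
    refine (Real.exp_le_exp.2 (primeSum_divisors_pow_le hCM r hk hkx hx2)).trans ?_
    rw [← hP, show (2 : ℝ) ^ r * (Real.log (Real.log x) + CM) - 2 ^ r * P =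
      ((2 ^ r : ℕ) : ℝ) * Real.log (Real.log x) + (2 ^ r * CM + ((2 ^ r : ℕ) : ℝ) * -P) by
        push_cast; ring, Real.exp_add, Real.exp_nat_mul, Real.exp_log hlx, Real.exp_add,
      Real.exp_nat_mul]
    refine mul_le_mul_of_nonneg_left ?_ (by positivity)
    refine (mul_le_mul_of_nonneg_left (pow_le_pow_left₀ (Real.exp_pos _).le
      (hP ▸ exp_neg_sum_inv_le hk) _) (Real.exp_pos _).le).trans_eq ?_
    rw [mul_pow, ← mul_assoc, ← Real.exp_nat_mul, ← Real.exp_add]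
    push_cast
    ring_nf
  have hpow : Real.log x ^ (2 ^ r) = Real.log x * Real.log x ^ (2 ^ r - 1) := by
    rw [← pow_succ', Nat.sub_add_cancel Nat.one_le_two_pow]
  refine (hx y k a hxy hyx hk hky ha).trans ?_
  calc C0 * (y / ((k.totient : ℕ) * Real.log x) *
        Real.exp (primeSum (fun n : ℕ => (#n.divisors : ℝ) ^ r) k x))
      ≤ |C0| * (y / ((k.totient : ℕ) * Real.log x) * (Real.log x ^ (2 ^ r) *
          (Real.exp (2 ^ r * (CM + 4)) * (((k.totient : ℕ) : ℝ) / k) ^ (2 ^ r)))) := by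
        gcongr
        exact le_abs_self C0
    _ = _ := by
        rw [hpow]
        field_simp

end FA.ShiuBrun
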