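import Fermat.Agent.ShiuBrun.Split
import Fermat.Agent.ErdosDivisor.Euler

/-!
# Euler products for the sums over smooth numbers

`∑ f b b ^ α / b ≪ exp (∑ f p / p)` over the `b` prime to `k` with prime factors `≤ y`, when
`α ≤ 1/4` and `α log y` is bounded.
-/

set_option autoImplicit false

noncomputable section

namespace FA.ShiuBrun

open Finset
open FA.ErdosKac (primesUpTo mem_primesUpTo)

variable {f : ℕ → ℝ}

/-- The primes `≤ y` prime to `k`. -/
def coprimePrimes (k y : ℕ) : Finset ℕ := (primesUpTo y).filter fun p => ¬ p ∣ k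

/-- `∑_{p ≤ y, p ∤ k} f p / p`. -/
def primeSum (f : ℕ → ℝ) (k y : ℕ) : ℝ := ∑ p ∈ coprimePrimes k y, f p / p

theorem primeSum_nonneg (hf : ShiuClass f) (k y : ℕ) : 0 ≤ primeSum f k y :=
  sum_nonneg fun p _ => div_nonneg (hf.nonneg p) (Nat.cast_nonneg p)

theorem primeSum_mono (hf : ShiuClass f) (k : ℕ) {y y' : ℕ} (h : y ≤ y') :
    primeSum f k y ≤ primeSum f k y' :=
  sum_le_sum_of_subset_of_nonneg (fun p hp => by
    simp only [coprimePrimes, mem_filter, mem_primesUpTo] at hp ⊢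
    exact ⟨⟨hp.1.1, hp.1.2.trans h⟩, hp.2⟩) fun p _ _ =>
    div_nonneg (hf.nonneg p) (Nat.cast_nonneg p)

/-- **The Euler factors.** -/
theorem exists_factor_le (hf : ShiuClass f) : ∃ K : ℝ, 0 ≤ K ∧
    ∀ p : ℕ, p.Prime → ∀ α : ℝ, 0 ≤ α → α ≤ 1 / 4 →
      Summable (fun j : ℕ => f (p ^ j) * ((p ^ j : ℕ) : ℝ) ^ α / ((p ^ j : ℕ) : ℝ)) ∧
      ∑' j : ℕ, f (p ^ j) * ((p ^ j : ℕ) : ℝ) ^ α / ((p ^ j : ℕ) : ℝ) ≤
        1 + f p * (p : ℝ) ^ α / p + K * (p : ℝ) ^ (-(5 / 4) : ℝ) := by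
  obtain ⟨B, hB⟩ := hf.growth (1 / 8) (by norm_num)
  refine ⟨4 * |B|, by positivity, fun p hp α hα0 hα => ?_⟩
  have hp0 : (0 : ℝ) < p := Nat.cast_pos.2 hp.pos
  have hp2 : (2 : ℝ) ≤ p := Nat.ofNat_le_cast.2 hp.two_le
  obtain ⟨q, hq⟩ : ∃ q : ℝ, q = (p : ℝ) ^ (-(5 / 8) : ℝ) := ⟨_, rfl⟩
  have hq0 : 0 ≤ q := hq ▸ by positivity
  have hq1 : q ≤ 3 / 4 := by
    rw [hq]
    calc (p : ℝ) ^ (-(5 / 8) : ℝ) ≤ (2 : ℝ) ^ (-(5 / 8) : ℝ) :=
          Real.rpow_le_rpow_of_nonpos (by norm_num) hp2 (by norm_num)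
      _ ≤ 3 / 4 := by
          rw [← Real.rpow_le_rpow_iff (z := 8) (by positivity) (by norm_num) (by norm_num),
            ← Real.rpow_mul (by norm_num)]
          norm_num
  have hterm : ∀ j : ℕ, f (p ^ j) * ((p ^ j : ℕ) : ℝ) ^ α / ((p ^ j : ℕ) : ℝ) ≤ |B| * q ^ j := by
    intro j
    have hpj : (0 : ℝ) < ((p ^ j : ℕ) : ℝ) := Nat.cast_pos.2 (pow_pos hp.pos j)
    have h1 : f (p ^ j) ≤ |B| * ((p ^ j : ℕ) : ℝ) ^ (1 / 8 : ℝ) :=
      (hB _ (pow_pos hp.pos j)).trans (mul_le_mul_of_nonneg_right (le_abs_self B) (by positivity))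
    refine (div_le_div_of_nonneg_right (mul_le_mul_of_nonneg_right h1 (by positivity))
      hpj.le).trans ?_
    rw [mul_assoc, ← Real.rpow_add hpj, mul_div_assoc]
    refine mul_le_mul_of_nonneg_left ?_ (abs_nonneg B)
    rw [← Real.rpow_sub_one hpj.ne', Nat.cast_pow, ← Real.rpow_natCast_mul hp0.le, hq,
      ← Real.rpow_mul_natCast hp0.le]
    refine Real.rpow_le_rpow_of_exponent_le (by linarith) ?_
    have := mul_le_mul_of_nonneg_left hα (Nat.cast_nonneg (α := ℝ) j)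
    linarith
  have hg := summable_geometric_of_lt_one hq0 (by linarith)
  have hnn : ∀ j : ℕ, 0 ≤ f (p ^ j) * ((p ^ j : ℕ) : ℝ) ^ α / ((p ^ j : ℕ) : ℝ) := fun j =>
    div_nonneg (mul_nonneg (hf.nonneg _) (by positivity)) (by positivity)
  have hsum := Summable.of_nonneg_of_le hnn hterm (hg.mul_left |B|)
  refine ⟨hsum, ?_⟩
  rw [← hsum.sum_add_tsum_nat_add 2, sum_range_succ, sum_range_one, pow_zero, pow_one, hf.one,
    Nat.cast_one, Real.one_rpow, mul_one, div_one]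
  refine add_le_add le_rfl ?_
  have e2 : (p : ℝ) ^ (-(5 / 4) : ℝ) = q ^ 2 := by
    rw [hq, ← Real.rpow_mul_natCast hp0.le]
    norm_num
  calc ∑' j : ℕ, f (p ^ (j + 2)) * ((p ^ (j + 2) : ℕ) : ℝ) ^ α / ((p ^ (j + 2) : ℕ) : ℝ)
      ≤ ∑' j : ℕ, |B| * q ^ 2 * q ^ j :=
        ((summable_nat_add_iff 2).2 hsum).tsum_le_tsum (fun j => (hterm (j + 2)).trans
          (le_of_eq (by ring))) (hg.mul_left _)
    _ = |B| * q ^ 2 * (1 - q)⁻¹ := by rw [tsum_mul_left, tsum_geometric_of_lt_one hq0 (by linarith)]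
    _ ≤ |B| * q ^ 2 * 4 := by
        gcongr
        rw [inv_le_comm₀ (by linarith) (by norm_num)]
        linarith
    _ = 4 * |B| * (p : ℝ) ^ (-(5 / 4) : ℝ) := by rw [e2]; ring

/-- **The sum over smooth numbers.** -/
theorem exists_sum_le (hf : ShiuClass f) (c : ℝ) : ∃ C : ℝ, 0 < C ∧
    ∀ k y : ℕ, 2 ≤ y → ∀ α : ℝ, 0 ≤ α → α ≤ 1 / 4 → α * Real.log y ≤ c →
      ∀ s : Finset ℕ, (∀ b ∈ s, b ≠ 0 ∧ b.Coprime k ∧ ∀ p ∈ b.primeFactors, p ≤ y) →
        ∑ b ∈ s, f b * (b : ℝ) ^ α / b ≤ C * Real.exp (primeSum f k y) := by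
  obtain ⟨K, hK0, hK⟩ := exists_factor_le hf
  obtain ⟨A, hA1, hA⟩ := hf.primePow
  obtain ⟨S, hS⟩ : ∃ S : ℝ, S = ∑' n : ℕ, (n : ℝ) ^ (-(5 / 4) : ℝ) := ⟨_, rfl⟩
  have hsumS : Summable fun n : ℕ => (n : ℝ) ^ (-(5 / 4) : ℝ) :=
    Real.summable_nat_rpow.2 (by norm_num)
  refine ⟨Real.exp (A * Real.exp c * (c + 9) + K * S), Real.exp_pos _,
    fun k y hy α hα0 hα hαy s hs => ?_⟩
  obtain ⟨F, hF⟩ : ∃ F : ℕ → ℝ, F = fun b => f b * (b : ℝ) ^ α / b := ⟨_, rfl⟩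
  have hF0 : ∀ b, 0 ≤ F b := fun b => by
    rw [hF]
    exact div_nonneg (mul_nonneg (hf.nonneg b) (by positivity)) (Nat.cast_nonneg b)
  obtain ⟨hsum, hh⟩ := EulerProduct.summable_and_hasSum_factoredNumbers_prod_filter_prime_tsum
    (f := F) (by simp [hF, hf.one])
    (fun {m n} h => by
      simp only [hF, hf.mul m n h, Nat.cast_mul,
        Real.mul_rpow (Nat.cast_nonneg m) (Nat.cast_nonneg n)]
      ring)
    (fun {p} hp => ((hK p hp α hα0 hα).1).congr fun j => by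
      rw [Real.norm_of_nonneg (hF0 _), hF]) (coprimePrimes k y)
  have hmem : ∀ p ∈ coprimePrimes k y, p.Prime ∧ p ≤ y := fun p hp =>
    mem_primesUpTo.1 (mem_filter.1 hp).1
  rw [filter_true_of_mem fun p hp => (hmem p hp).1] at hh
  have hsub : ∀ b ∈ s, b ∈ Nat.factoredNumbers (coprimePrimes k y) := fun b hb =>
    Nat.mem_factoredNumbers.2 ⟨(hs b hb).1, fun p hp => mem_filter.2
      ⟨mem_primesUpTo.2 ⟨Nat.prime_of_mem_primeFactorsList hp,
        (hs b hb).2.2 p (Nat.mem_primeFactors_iff_mem_primeFactorsList.2 hp)⟩,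
      (Nat.prime_of_mem_primeFactorsList hp).coprime_iff_not_dvd.1
        (((hs b hb).2.1).coprime_dvd_left (Nat.dvd_of_mem_primeFactorsList hp))⟩⟩
  have h1 : ∑ b ∈ s, F b ≤ ∏ p ∈ coprimePrimes k y,
      (1 + f p * (p : ℝ) ^ α / p + K * (p : ℝ) ^ (-(5 / 4) : ℝ)) := by
    refine le_trans ?_ (prod_le_prod (fun p _ => tsum_nonneg fun j => hF0 _) fun p hp => by
      rw [hF]; exact (hK p (hmem p hp).1 α hα0 hα).2)
    refine le_trans (le_of_eq ?_) (sum_le_hasSum (s.attach.map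
      ⟨fun n => ⟨n.1, hsub n.1 n.2⟩, fun a b h => Subtype.ext (by simpa using h)⟩)
      (fun n _ => hF0 _) hh)
    rw [sum_map, ← sum_attach s]
    rfl
  rw [show ∑ b ∈ s, f b * (b : ℝ) ^ α / b = ∑ b ∈ s, F b by rw [hF]]
  refine h1.trans ((prod_le_prod (g := fun p : ℕ => Real.exp (f p / p +
    A * Real.exp c * (α * (Real.log p / p)) + K * (p : ℝ) ^ (-(5 / 4) : ℝ)))
    (fun p _ => ?_) fun p hp => ?_).trans ?_)
  · have : 0 ≤ f p * (p : ℝ) ^ α / p :=
      div_nonneg (mul_nonneg (hf.nonneg p) (by positivity)) (Nat.cast_nonneg p)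
    positivity
  · obtain ⟨hpp, hpy⟩ := hmem p hp
    have hp0 : (0 : ℝ) < p := Nat.cast_pos.2 hpp.pos
    have hlp : 0 ≤ Real.log p := Real.log_natCast_nonneg p
    have hfp : f p ≤ A := by simpa using hA p 1 hpp
    have hpa : (p : ℝ) ^ α ≤ 1 + α * Real.log p * Real.exp c := by
      have h := ErdosDivisor.exp_sub_one_le (α * Real.log p)
      rw [show (p : ℝ) ^ α = Real.exp (α * Real.log p) by
        rw [Real.rpow_def_of_pos hp0, mul_comm]]
      have : Real.exp (α * Real.log p) ≤ Real.exp c := Real.exp_le_exp.2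
        ((mul_le_mul_of_nonneg_left (Real.log_le_log hp0 (Nat.cast_le.2 hpy)) hα0).trans hαy)
      have := mul_le_mul_of_nonneg_left this (mul_nonneg hα0 hlp)
      linarith
    refine le_trans ?_ (Real.add_one_le_exp _)
    have : f p * (p : ℝ) ^ α / p ≤ f p / p + A * Real.exp c * (α * (Real.log p / p)) := by
      calc f p * (p : ℝ) ^ α / p = f p / p * (p : ℝ) ^ α := by ring
        _ ≤ f p / p * (1 + α * Real.log p * Real.exp c) :=
            mul_le_mul_of_nonneg_left hpa (div_nonneg (hf.nonneg p) hp0.le)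
        _ = f p / p + f p * Real.exp c * (α * (Real.log p / p)) := by ring
        _ ≤ _ := by gcongr
    linarith
  · rw [← Real.exp_sum, sum_add_distrib, sum_add_distrib, ← mul_sum, ← mul_sum, ← mul_sum,
      ← Real.exp_add, Real.exp_le_exp, primeSum]
    have hlog : α * ∑ p ∈ coprimePrimes k y, Real.log p / (p : ℝ) ≤ c + 9 := by
      refine (mul_le_mul_of_nonneg_left ((sum_le_sum_of_subset_of_nonneg (filter_subset _ _)
        fun p _ _ => div_nonneg (Real.log_natCast_nonneg p) (Nat.cast_nonneg p)).trans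
          (ErdosDivisor.sum_log_prime_div_le hy)) hα0).trans ?_
      linarith
    have hS' : ∑ p ∈ coprimePrimes k y, (p : ℝ) ^ (-(5 / 4) : ℝ) ≤ S := by
      rw [hS]
      exact hsumS.sum_le_tsum _ fun n _ => by positivity
    have := mul_le_mul_of_nonneg_left hlog (show 0 ≤ A * Real.exp c by positivity)
    have := mul_le_mul_of_nonneg_left hS' hK0
    linarith

theorem shiuClass_one : ShiuClass fun _ => (1 : ℝ) where
  nonneg _ := zero_le_one
  one := rfl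
  mul _ _ _ := (one_mul 1).symm
  primePow := ⟨1, le_rfl, fun _ l _ => (one_pow l).ge⟩
  growth ε hε := ⟨1, fun n hn => by
    rw [one_mul]
    exact Real.one_le_rpow (Nat.one_le_cast.2 hn) hε.le⟩

end FA.ShiuBrun
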