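import Fermat.Agent.ShiuBrun.Sieve

/-!
# Shiu's theorem

`∑ f n ≪ y / (φ k log x) · exp (∑_{p ≤ x, p ∤ k} f p / p)` over the `n ∈ (x - y, x]` in a class
prime to `k`, when `x ^ β ≤ y ≤ x` and `k ≤ y ^ (1 - α)`. With `z = y ^ (α / 20)` the sieve handles
`n = b d` with `b ≤ z`; Rankin's trick gains `e ^ (-r)` when the primes of `b` are `≤ z ^ (1/r)`.
-/

set_option autoImplicit false

noncomputable section

namespace FA.ShiuBrun

open Finset Filter
open FA.ErdosDivisor (midPowers)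
open FA.ErdosKac (primesUpTo mem_primesUpTo)

variable {f : ℕ → ℝ}

/-- The `b ≤ z` prime to `k`. -/
def smallParts (z : ℝ) (k : ℕ) : Finset ℕ := (Icc 1 ⌊z⌋₊).filter fun b => b.Coprime k

/-- The smooth `b ∈ (√z, z]` prime to `k`. -/
def smoothParts (z u : ℝ) (k : ℕ) : Finset ℕ :=
  (smallParts z k).filter fun b : ℕ => Real.sqrt z < b ∧ ∀ p ∈ b.primeFactors, (p : ℝ) ≤ u

theorem mem_smallParts {z : ℝ} (hz : 0 ≤ z) {k b : ℕ} :
    b ∈ smallParts z k ↔ 1 ≤ b ∧ (b : ℝ) ≤ z ∧ b.Coprime k := by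
  rw [smallParts, mem_filter, mem_Icc, Nat.le_floor_iff hz, and_assoc]

theorem card_smallParts_le {z : ℝ} (hz : 0 ≤ z) (k : ℕ) : (#(smallParts z k) : ℝ) ≤ z :=
  (Nat.cast_le.2 ((card_filter_le _ _).trans (le_of_eq (by
    rw [Nat.card_Icc, Nat.add_sub_cancel])))).trans (Nat.floor_le hz)

theorem sum_ite_window {W S : Finset ℕ} (hS : S ⊆ W) (c : ℝ) :
    ∑ n ∈ W, (if n ∈ S then c else 0) = c * #S := by
  rw [sum_ite_mem, inter_eq_right.2 hS, sum_const, nsmul_eq_mul, mul_comm]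

theorem card_midPowers_le {z : ℝ} (hz : 256 ≤ z) :
    (#(midPowers z) : ℝ) ≤ 66 * z ^ (5 / 16 : ℝ) := by
  have hz0 : 0 < z := by linarith
  obtain ⟨u, hu⟩ : ∃ u : ℝ, u = z ^ (1 / 4 : ℝ) := ⟨_, rfl⟩
  obtain ⟨v, hv⟩ : ∃ v : ℝ, v = z ^ (1 / 16 : ℝ) := ⟨_, rfl⟩
  have hu1 : 1 ≤ u := hu ▸ Real.one_le_rpow (by linarith) (by norm_num)
  have hv1 : 1 ≤ v := hv ▸ Real.one_le_rpow (by linarith) (by norm_num)
  have hlog : Real.logb 2 z + 1 ≤ 33 * v := by
    have h1 := Real.log_le_rpow_div hz0.le (show (0 : ℝ) < 1 / 16 by norm_num)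
    rw [← hv, le_div_iff₀ (by norm_num)] at h1
    have h2 := Real.log_two_gt_d9
    have h3 : Real.logb 2 z ≤ 32 * v := by
      rw [Real.logb, div_le_iff₀ (by linarith)]
      nlinarith
    linarith
  refine le_trans (Nat.cast_le.2 ((card_filter_le _ _).trans card_image_le)) ?_
  rw [card_product, card_range, Nat.cast_mul, ← hu, show (5 / 16 : ℝ) = 1 / 4 + 1 / 16 by norm_num,
    Real.rpow_add hz0, ← hu, ← hv, show 66 * (u * v) = 2 * u * (33 * v) by ring]
  refine mul_le_mul (le_trans (Nat.cast_le.2 ((card_filter_le _ _).trans (card_range _).le))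
    ?_) ?_ (Nat.cast_nonneg _) (by linarith)
  · have := Nat.ceil_lt_add_one (show 0 ≤ u by linarith)
    linarith
  · push_cast
    have := Nat.floor_le (Real.logb_nonneg one_lt_two (show 1 ≤ z by linarith))
    linarith

/-- The class with no prime below `z ^ (1/4)` outside `b`. -/
def classOne (f : ℕ → ℝ) (x y k a : ℕ) (z : ℝ) : ℝ :=
  ∑ b ∈ smallParts z k, f b * #(roughMult x y k a (z ^ (1 / 4 : ℝ)) b)

/-- The class of `q ≈ z ^ (1/r)`. -/
def classThree (f : ℕ → ℝ) (x y k a : ℕ) (z : ℝ) (A : ℝ) (K Q0 : ℕ) : ℝ :=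
  ∑ r ∈ Icc 1 ⌊Real.log z / Real.log Q0⌋₊, ∑ b ∈ smoothParts z (z ^ ((1 : ℝ) / r)) k,
    A ^ (K * (r + 1)) * (f b * #(roughMult x y k a (z ^ ((1 : ℝ) / (r + 1))) b))

/-- A sum of `f` over the window, class by class. -/
theorem sum_window_le (hf : ShiuClass f) {A : ℝ} (hA1 : 1 ≤ A)
    (hA : ∀ p l : ℕ, p.Prime → f (p ^ l) ≤ A ^ l) {x y k a : ℕ} (ha : a.Coprime k) {z T : ℝ}
    {K Q0 : ℕ} (hz : 1 < z) (hQ0 : 1 < Q0) (hxz : (x : ℝ) ≤ z ^ K) (hT0 : 0 ≤ T)
    (hT : ∀ n ∈ window x y k a, f n ≤ T) :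
    ∑ n ∈ window x y k a, f n ≤
      A ^ (4 * K) * classOne f x y k a z +
        T * ∑ m ∈ midPowers z, (#((window x y k a).filter (m ∣ ·)) : ℝ) +
        classThree f x y k a z A K Q0 +
        T * ∑ b ∈ smoothParts z Q0 k, (#((window x y k a).filter (b ∣ ·)) : ℝ) := by
  obtain ⟨W, hW⟩ : ∃ W, W = window x y k a := ⟨_, rfl⟩
  rw [classOne, classThree, mul_sum, mul_sum, mul_sum, ← hW]
  simp only [← mul_assoc]
  rw [← hW] at hT
  have hz0 : 0 ≤ z := by linarith
  have hA0 : 0 ≤ A := by linarith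
  have h1 : ∀ b n : ℕ, 0 ≤ if n ∈ roughMult x y k a (z ^ (1 / 4 : ℝ)) b then
      A ^ (4 * K) * f b else 0 := fun b n => by
    have := hf.nonneg b
    split_ifs <;> positivity
  have h2 : ∀ m n : ℕ, 0 ≤ if n ∈ W.filter (m ∣ ·) then T else 0 := fun m n => by
    split_ifs <;> linarith
  have h3 : ∀ r b n : ℕ, 0 ≤ if n ∈ roughMult x y k a (z ^ ((1 : ℝ) / (r + 1))) b then
      A ^ (K * (r + 1)) * f b else 0 := fun r b n => by
    have := hf.nonneg b
    split_ifs <;> positivity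
  refine (sum_le_sum (g := fun n =>
    (∑ b ∈ smallParts z k, if n ∈ roughMult x y k a (z ^ (1 / 4 : ℝ)) b then
      A ^ (4 * K) * f b else 0) +
    (∑ m ∈ midPowers z, if n ∈ W.filter (m ∣ ·) then T else 0) +
    (∑ r ∈ Icc 1 ⌊Real.log z / Real.log Q0⌋₊, ∑ b ∈ smoothParts z (z ^ ((1 : ℝ) / r)) k,
      if n ∈ roughMult x y k a (z ^ ((1 : ℝ) / (r + 1))) b then
        A ^ (K * (r + 1)) * f b else 0) +
    ∑ b ∈ smoothParts z Q0 k, if n ∈ W.filter (b ∣ ·) then T else 0) fun n hn => ?_).trans_eq ?_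
  · have h4 : ∀ r : ℕ, 0 ≤ ∑ b ∈ smoothParts z (z ^ ((1 : ℝ) / r)) k,
        if n ∈ roughMult x y k a (z ^ ((1 : ℝ) / (r + 1))) b then
          A ^ (K * (r + 1)) * f b else 0 := fun r => sum_nonneg fun b _ => h3 r b n
    have s1 := sum_nonneg (s := smallParts z k) fun b _ => h1 b n
    have s2 := sum_nonneg (s := midPowers z) fun m _ => h2 m n
    have s3 := sum_nonneg (s := Icc 1 ⌊Real.log z / Real.log Q0⌋₊) fun r _ => h4 r
    have s4 := sum_nonneg (s := smoothParts z Q0 k) fun m _ => h2 m n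
    have hnW : n ∈ window x y k a := hW ▸ hn
    obtain ⟨hn0, hnx⟩ := mem_Ioc.1 (mem_filter.1 hnW).1
    have hcop := coprime_of_mem_window ha hnW
    have hn1 : n ≠ 0 := by omega
    rcases split_cases hn1 hz hQ0 ((Nat.cast_le.2 hnx).trans hxz) with
      ⟨b, d, hbd, hco, hbz, hdp, hdw⟩ | ⟨m, hm, hmn⟩ |
      ⟨r, b, d, hr, hrQ, hbd, hco, hbz, hbs, hbp, hdp, hdw⟩ | ⟨b, hbz, hbs, hbp, hbn⟩
    · have hbn : b ∣ n := hbd ▸ dvd_mul_right b d
      have hb1 : 1 ≤ b := Nat.pos_of_dvd_of_pos hbn (by omega)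
      have hdiv : n / b = d := by rw [← hbd, Nat.mul_div_cancel_left d hb1]
      have hd0 : d ≠ 0 := fun h => hn1 (by rw [← hbd, h, mul_zero])
      have hmem : n ∈ roughMult x y k a (z ^ (1 / 4 : ℝ)) b :=
        mem_filter.2 ⟨hnW, hbn, hdiv.symm ▸ hdp⟩
      have := single_le_sum (fun b _ => h1 b n)
        ((mem_smallParts hz0).2 ⟨hb1, hbz, hcop.coprime_dvd_left hbn⟩)
      rw [if_pos hmem] at this
      have hfn : f n ≤ A ^ (4 * K) * f b := by
        rw [← hbd, hf.mul b d hco, mul_comm]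
        exact mul_le_mul_of_nonneg_right (le_pow_of_rough hf hA1 hA hd0
          (Real.one_lt_rpow hz (by norm_num)) hdp hdw) (hf.nonneg b)
      linarith
    · have := single_le_sum (fun m _ => h2 m n) hm
      rw [if_pos (show n ∈ W.filter (m ∣ ·) from mem_filter.2 ⟨hn, hmn⟩)] at this
      linarith [hT n hn]
    · have hbn : b ∣ n := hbd ▸ dvd_mul_right b d
      have hb1 : 1 ≤ b := Nat.pos_of_dvd_of_pos hbn (by omega)
      have hdiv : n / b = d := by rw [← hbd, Nat.mul_div_cancel_left d hb1]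
      have hd0 : d ≠ 0 := fun h => hn1 (by rw [← hbd, h, mul_zero])
      have hmem : n ∈ roughMult x y k a (z ^ ((1 : ℝ) / (r + 1))) b :=
        mem_filter.2 ⟨hnW, hbn, hdiv.symm ▸ hdp⟩
      have hlQ : 0 < Real.log Q0 := Real.log_pos (Nat.one_lt_cast.2 hQ0)
      have hr' : r ∈ Icc 1 ⌊Real.log z / Real.log Q0⌋₊ :=
        mem_Icc.2 ⟨hr, Nat.le_floor ((le_div_iff₀ hlQ).2 hrQ)⟩
      have hb' : b ∈ smoothParts z (z ^ ((1 : ℝ) / r)) k := mem_filter.2
        ⟨(mem_smallParts hz0).2 ⟨hb1, hbz, hcop.coprime_dvd_left hbn⟩, hbs, hbp⟩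
      have t1 := single_le_sum (fun b _ => h3 r b n) hb'
      rw [if_pos hmem] at t1
      have t2 := single_le_sum (fun r _ => h4 r) hr'
      have hfn : f n ≤ A ^ (K * (r + 1)) * f b := by
        rw [← hbd, hf.mul b d hco, mul_comm]
        exact mul_le_mul_of_nonneg_right (le_pow_of_rough hf hA1 hA hd0
          (Real.one_lt_rpow hz (by positivity)) hdp hdw) (hf.nonneg b)
      linarith
    · have hb' : b ∈ smoothParts z Q0 k := mem_filter.2
        ⟨(mem_smallParts hz0).2 ⟨Nat.pos_of_dvd_of_pos hbn (by omega), hbz,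
          hcop.coprime_dvd_left hbn⟩, hbs, fun p hp => Nat.cast_le.2 (hbp p hp)⟩
      have := single_le_sum (fun m _ => h2 m n) hb'
      rw [if_pos (show n ∈ W.filter (b ∣ ·) from mem_filter.2 ⟨hn, hbn⟩)] at this
      linarith [hT n hn]
  · simp only [sum_add_distrib]
    rw [sum_comm (t := smallParts z k), sum_comm (t := midPowers z),
      sum_comm (t := smoothParts z (Q0 : ℝ) k),
      sum_comm (t := Icc 1 ⌊Real.log z / Real.log Q0⌋₊)]
    simp only [sum_comm (s := W) (t := smoothParts z _ k)]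
    rw [sum_congr rfl fun b _ => sum_ite_window (hW ▸ filter_subset _ _) _,
      sum_congr rfl fun m _ => sum_ite_window (filter_subset _ W) _,
      sum_congr rfl fun r _ => sum_congr rfl fun b _ =>
        sum_ite_window (hW ▸ filter_subset _ _) _,
      sum_congr rfl fun m _ => sum_ite_window (filter_subset _ W) _]

theorem exists_classOne_le (hf : ShiuClass f) {B : ℝ} (hB : ∀ n : ℕ, 0 < n → f n ≤ B * n) :
    ∃ C : ℝ, 0 ≤ C ∧ ∀ (x y k a : ℕ) (z : ℝ), 256 ≤ z → z ≤ x → 0 < k →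
      classOne f x y k a z ≤
        C * (y / ((k.totient : ℕ) * Real.log z) * Real.exp (primeSum f k x)) + 2 * B * z ^ 8 := by
  obtain ⟨C2, hC2, hsum⟩ := exists_sum_le hf 0
  refine ⟨8 * C2, by positivity, fun x y k a z hz hzx hk => ?_⟩
  have hz0 : 0 < z := by linarith
  obtain ⟨w, hw⟩ : ∃ w : ℝ, w = z ^ (1 / 4 : ℝ) := ⟨_, rfl⟩
  have hw2 : 2 ≤ w := by
    calc (2 : ℝ) ≤ (256 : ℝ) ^ (1 / 4 : ℝ) := by
          rw [show (256 : ℝ) = 4 ^ (4 : ℝ) by norm_num, ← Real.rpow_mul (by norm_num)]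
          norm_num
      _ ≤ w := hw ▸ Real.rpow_le_rpow (by norm_num) hz (by norm_num)
  have hwz : w ≤ z := hw ▸ (Real.rpow_le_rpow_of_exponent_le (by linarith) (by norm_num)).trans_eq
    (Real.rpow_one z)
  have hlw : Real.log w = Real.log z / 4 := by rw [hw, Real.log_rpow hz0]; ring
  have hlz : 0 < Real.log z := Real.log_pos (by linarith)
  have htot : (0 : ℝ) < (k.totient : ℕ) := Nat.cast_pos.2 (Nat.totient_pos.2 hk)
  have hs : ∑ b ∈ smallParts z k, f b / b ≤ C2 * Real.exp (primeSum f k x) := by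
    have hM2 : 2 ≤ ⌊z⌋₊ := Nat.le_floor (by push_cast; linarith)
    have h := hsum k ⌊z⌋₊ hM2 0 le_rfl (by norm_num) (by rw [zero_mul]) (smallParts z k)
      fun b hb => by
        obtain ⟨hb1, hb2⟩ := mem_filter.1 hb
        rw [mem_Icc] at hb1
        exact ⟨by omega, hb2, fun p hp => (Nat.le_of_mem_primeFactors hp).trans hb1.2⟩
    simp only [Real.rpow_zero, mul_one] at h
    refine h.trans (mul_le_mul_of_nonneg_left (Real.exp_le_exp.2 (primeSum_mono hf k ?_)) hC2.le)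
    exact Nat.floor_le_of_le hzx
  rw [classOne, ← hw]
  refine (sum_le_sum (g := fun b : ℕ => 8 * ((y : ℝ) / ((k.totient : ℕ) * Real.log z)) * (f b / b) +
    B * z * (2 * z ^ 6)) fun b hb => ?_).trans ?_
  · obtain ⟨hb1, hbz, hbk⟩ := (mem_smallParts hz0.le).1 hb
    refine (mul_le_mul_of_nonneg_left (card_roughMult_le hk hb1 hbk hw2) (hf.nonneg b)).trans ?_
    rw [mul_add]
    refine add_le_add (le_of_eq ?_) ?_
    · rw [hlw]
      field_simp
      ring
    · refine mul_le_mul ((hB b hb1).trans ?_) ?_ (by positivity) ?_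
      · have : 0 ≤ B := by
          have := hB 1 one_pos; rw [hf.one, Nat.cast_one, mul_one] at this; linarith
        gcongr
      · gcongr
      · have := hB 1 one_pos
        rw [hf.one, Nat.cast_one, mul_one] at this
        positivity
  · rw [sum_add_distrib, ← mul_sum, sum_const, nsmul_eq_mul]
    refine add_le_add ?_ ?_
    · refine (mul_le_mul_of_nonneg_left hs (by positivity)).trans_eq ?_
      ring
    · have hB0 : 0 ≤ B := by
        have := hB 1 one_pos; rw [hf.one, Nat.cast_one, mul_one] at this; linarith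
      refine (mul_le_mul_of_nonneg_right (card_smallParts_le hz0.le k) (by positivity)).trans_eq ?_
      ring

theorem exists_classThree_le (hf : ShiuClass f) {A : ℝ} (hA1 : 1 ≤ A) {B : ℝ} (hB0 : 0 ≤ B)
    (hB : ∀ n : ℕ, 0 < n → f n ≤ B * n) (K : ℕ) :
    ∃ C : ℝ, ∃ Q0 : ℕ, 0 ≤ C ∧ 2 ≤ Q0 ∧ ∀ (x y k a : ℕ) (z : ℝ), 256 ≤ z → z ≤ x → 0 < k →
      classThree f x y k a z A K Q0 ≤
        C * (y / ((k.totient : ℕ) * Real.log z) * Real.exp (primeSum f k x)) + C * z ^ 10 := by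
  obtain ⟨J, hJ⟩ : ∃ J : ℝ, J = 2 * (K * Real.log A + 1) := ⟨_, rfl⟩
  have hlA : 0 ≤ (K : ℝ) * Real.log A := mul_nonneg (Nat.cast_nonneg K) (Real.log_nonneg hA1)
  have hJ0 : 0 < J := by rw [hJ]; linarith
  obtain ⟨C2, hC2, hsum⟩ := exists_sum_le hf J
  obtain ⟨Q0, hQ⟩ : ∃ Q0 : ℕ, Q0 = ⌈Real.exp (4 * J + K * Real.log A + 4)⌉₊ := ⟨_, rfl⟩
  have hQR : Real.exp (4 * J + K * Real.log A + 4) ≤ (Q0 : ℝ) := hQ ▸ Nat.le_ceil _
  have hQ1 : (4 : ℝ) ≤ Q0 := by
    linarith [Real.add_one_le_exp (4 * J + K * Real.log A + 4)]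
  have hlQ : 4 * J + K * Real.log A + 4 ≤ Real.log Q0 :=
    (Real.le_log_iff_exp_le (by linarith)).2 hQR
  obtain ⟨S, hS⟩ : ∃ S : ℝ, S = ∑' r : ℕ, ((r : ℝ) + 1) * Real.exp (-1) ^ r := ⟨_, rfl⟩
  have he1 : Real.exp (-1) < 1 := Real.exp_lt_one_iff.2 (by norm_num)
  have hS1 : Summable fun r : ℕ => ((r : ℝ) + 1) * Real.exp (-1) ^ r := by
    have h1 := summable_pow_mul_geometric_of_norm_lt_one 1
      (show ‖Real.exp (-1)‖ < 1 by rwa [Real.norm_of_nonneg (Real.exp_pos _).le])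
    exact (h1.add (summable_geometric_of_lt_one (Real.exp_pos _).le he1)).congr fun r => by ring
  have hS0 : 0 ≤ S := hS ▸ tsum_nonneg fun r => by positivity
  refine ⟨max (2 * A ^ K * C2 * S) (2 * B * A ^ K), Q0, le_max_of_le_right (by positivity),
    Nat.ofNat_le_cast.1 (show ((2 : ℕ) : ℝ) ≤ Q0 by push_cast; linarith),
    fun x y k a z hz hzx hk => ?_⟩
  have hz0 : 0 < z := by linarith
  have hlz : 0 < Real.log z := Real.log_pos (by linarith)
  have hlQ0 : 0 < Real.log Q0 := by linarith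
  have htot : (0 : ℝ) < (k.totient : ℕ) := Nat.cast_pos.2 (Nat.totient_pos.2 hk)
  obtain ⟨N, hN⟩ : ∃ N, N = ⌊Real.log z / Real.log Q0⌋₊ := ⟨_, rfl⟩
  have hNle : (N : ℝ) * Real.log Q0 ≤ Real.log z := by
    rw [← le_div_iff₀ hlQ0, hN]
    exact Nat.floor_le (by positivity)
  have hNz : (N : ℝ) ≤ z := by
    have h1 : (N : ℝ) * 1 ≤ (N : ℝ) * Real.log Q0 :=
      mul_le_mul_of_nonneg_left (by linarith) (Nat.cast_nonneg N)
    have h2 := Real.log_le_sub_one_of_pos hz0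
    linarith
  obtain ⟨E, hE⟩ : ∃ E : ℝ, E = y / ((k.totient : ℕ) * Real.log z) *
    Real.exp (primeSum f k x) := ⟨_, rfl⟩
  have hE0 : 0 ≤ E := hE ▸ by positivity
  rw [classThree, ← hN, ← hE]
  refine (sum_le_sum (g := fun r : ℕ => 2 * A ^ K * C2 * E * (((r : ℝ) + 1) * Real.exp (-1) ^ r) +
    2 * B * A ^ K * z ^ 9) fun r hr => ?_).trans ?_
  · rw [mem_Icc] at hr
    have hr0 : (0 : ℝ) < r := Nat.cast_pos.2 hr.1
    have hrR : (1 : ℝ) ≤ r := Nat.one_le_cast.2 hr.1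
    have hrQ : (r : ℝ) * Real.log Q0 ≤ Real.log z :=
      le_trans (mul_le_mul_of_nonneg_right (Nat.cast_le.2 hr.2) hlQ0.le) hNle
    obtain ⟨w, hw⟩ : ∃ w : ℝ, w = z ^ ((1 : ℝ) / (r + 1)) := ⟨_, rfl⟩
    obtain ⟨u, hu⟩ : ∃ u : ℝ, u = z ^ ((1 : ℝ) / r) := ⟨_, rfl⟩
    obtain ⟨α, hα⟩ : ∃ α : ℝ, α = J * r / Real.log z := ⟨_, rfl⟩
    have hlu : Real.log u = Real.log z / r := by rw [hu, Real.log_rpow hz0]; ring
    have hlw : Real.log w = Real.log z / (r + 1) := by rw [hw, Real.log_rpow hz0]; ring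
    have hw2 : 2 ≤ w := by
      rw [hw, Real.le_rpow_iff_log_le two_pos hz0, one_div_mul_eq_div,
        le_div_iff₀ (by positivity)]
      calc Real.log 2 * ((r : ℝ) + 1) ≤ 1 * (2 * r) := by
            gcongr
            · linarith [Real.log_two_lt_d9]
            · linarith
        _ ≤ (r : ℝ) * Real.log Q0 := by nlinarith
        _ ≤ Real.log z := hrQ
    have hwu : w ≤ u := by
      rw [hw, hu]
      exact Real.rpow_le_rpow_of_exponent_le (by linarith)
        (one_div_le_one_div_of_le hr0 (by linarith))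
    have huz : u ≤ z := hu ▸ (Real.rpow_le_rpow_of_exponent_le (by linarith)
      (by rw [div_le_one hr0]; linarith)).trans_eq (Real.rpow_one z)
    have hY2 : 2 ≤ ⌊u⌋₊ := Nat.le_floor (by push_cast; linarith)
    have hlY : Real.log ⌊u⌋₊ ≤ Real.log z / r := hlu ▸
      Real.log_le_log (by positivity) (Nat.floor_le (by linarith))
    have hα0 : 0 ≤ α := hα ▸ by positivity
    have hα4 : α ≤ 1 / 4 := by
      rw [hα, div_le_iff₀ hlz]
      nlinarith
    have hαY : α * Real.log ⌊u⌋₊ ≤ J := by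
      refine (mul_le_mul_of_nonneg_left hlY hα0).trans_eq ?_
      rw [hα]
      field_simp
    have hmem : ∀ b ∈ smoothParts z u k, 1 ≤ b ∧ (b : ℝ) ≤ z ∧ b.Coprime k ∧
        Real.sqrt z < b ∧ ∀ p ∈ b.primeFactors, (p : ℝ) ≤ u := fun b hb => by
      obtain ⟨h1, h2, h3⟩ := mem_filter.1 hb
      obtain ⟨h4, h5, h6⟩ := (mem_smallParts hz0.le).1 h1
      exact ⟨h4, h5, h6, h2, h3⟩
    have hdt : ∑ b ∈ smoothParts z u k, f b / b ≤
        Real.exp (-(J * r / 2)) * (C2 * Real.exp (primeSum f k x)) := by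
      rw [Real.exp_neg, inv_mul_eq_div, le_div_iff₀ (Real.exp_pos _), sum_mul]
      refine (sum_le_sum (g := fun b : ℕ => f b * (b : ℝ) ^ α / b) fun b hb => ?_).trans
        ((hsum k ⌊u⌋₊ hY2 α hα0 hα4 hαY _ fun b hb => ?_).trans ?_)
      · rw [div_mul_eq_mul_div]
        refine div_le_div_of_nonneg_right (mul_le_mul_of_nonneg_left ?_ (hf.nonneg b))
          (Nat.cast_nonneg b)
        refine le_trans ?_ (Real.rpow_le_rpow (Real.sqrt_nonneg z) (hmem b hb).2.2.2.1.le hα0)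
        rw [Real.sqrt_eq_rpow, ← Real.rpow_mul hz0.le, Real.rpow_def_of_pos hz0]
        refine Real.exp_le_exp.2 (le_of_eq ?_)
        rw [hα]
        field_simp
      · obtain ⟨h1, -, h2, -, h3⟩ := hmem b hb
        exact ⟨by omega, h2, fun p hp => Nat.le_floor (h3 p hp)⟩
      · exact mul_le_mul_of_nonneg_left
          (Real.exp_le_exp.2 (primeSum_mono hf k (Nat.floor_le_of_le (huz.trans hzx)))) hC2.le
    have hAr : A ^ (K * r) * Real.exp (-(J * r / 2)) = Real.exp (-1) ^ r := by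
      rw [show A ^ (K * r) = Real.exp (((K * r : ℕ) : ℝ) * Real.log A) by
        rw [Real.exp_nat_mul, Real.exp_log (by linarith)], ← Real.exp_add, ← Real.exp_nat_mul, hJ]
      congr 1
      push_cast
      ring
    have hAz : A ^ (K * r) ≤ z := by
      rw [← Real.log_le_log_iff (by positivity) hz0, Real.log_pow, Nat.cast_mul]
      have h1 : (r : ℝ) * (K * Real.log A) ≤ (r : ℝ) * Real.log Q0 :=
        mul_le_mul_of_nonneg_left (by linarith) hr0.le
      linarith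
    rw [← hw, ← hu, ← mul_sum]
    refine (mul_le_mul_of_nonneg_left ((sum_le_sum (g := fun b : ℕ =>
      2 * ((y : ℝ) / ((k.totient : ℕ) * Real.log w)) * (f b / b) + B * z * (2 * z ^ 6))
        fun b hb => ?_).trans_eq (by rw [sum_add_distrib, ← mul_sum, sum_const, nsmul_eq_mul]))
          (by positivity)).trans ?_
    · obtain ⟨hb1, hbz, hbk, -, -⟩ := hmem b hb
      refine (mul_le_mul_of_nonneg_left (card_roughMult_le hk hb1 hbk hw2) (hf.nonneg b)).trans ?_
      rw [mul_add]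
      refine add_le_add (le_of_eq (by ring)) ?_
      refine mul_le_mul ((hB b hb1).trans (by gcongr)) ?_ (by positivity) (by positivity)
      gcongr
      exact hwu.trans huz
    rw [mul_add, show K * (r + 1) = K + K * r by ring, pow_add]
    refine add_le_add ?_ ?_
    · calc A ^ K * A ^ (K * r) * (2 * ((y : ℝ) / ((k.totient : ℕ) * Real.log w)) *
            ∑ b ∈ smoothParts z u k, f b / b)
          ≤ A ^ K * A ^ (K * r) * (2 * ((y : ℝ) / ((k.totient : ℕ) * Real.log w)) *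
              (Real.exp (-(J * r / 2)) * (C2 * Real.exp (primeSum f k x)))) := by
            have : 0 ≤ Real.log w := Real.log_nonneg (by linarith)
            gcongr
        _ = 2 * A ^ K * C2 * E * (((r : ℝ) + 1) * (A ^ (K * r) * Real.exp (-(J * r / 2)))) := by
            rw [hlw, hE]
            field_simp
        _ = _ := by rw [hAr]
    · have hcard : (#(smoothParts z u k) : ℝ) ≤ z :=
        (Nat.cast_le.2 (card_filter_le _ _)).trans (card_smallParts_le hz0.le k)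
      rw [show 2 * B * A ^ K * z ^ 9 = A ^ K * z * (z * (B * z * (2 * z ^ 6))) by ring]
      gcongr
  · rw [sum_add_distrib, sum_const, nsmul_eq_mul, Nat.card_Icc, Nat.add_sub_cancel, ← mul_sum]
    refine add_le_add ?_ ?_
    · calc 2 * A ^ K * C2 * E * ∑ r ∈ Icc 1 N, ((r : ℝ) + 1) * Real.exp (-1) ^ r
          ≤ 2 * A ^ K * C2 * E * S := by
            gcongr
            exact hS ▸ hS1.sum_le_tsum _ fun r _ => by positivity
        _ = 2 * A ^ K * C2 * S * E := by ring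
        _ ≤ _ := mul_le_mul_of_nonneg_right (le_max_left _ _) hE0
    · calc (N : ℝ) * (2 * B * A ^ K * z ^ 9) ≤ z * (2 * B * A ^ K * z ^ 9) := by gcongr
        _ = 2 * B * A ^ K * z ^ 10 := by ring
        _ ≤ _ := mul_le_mul_of_nonneg_right (le_max_right _ _) (by positivity)

/-- **Shiu's theorem.** -/
theorem exists_shiu (hf : ShiuClass f) {α β : ℝ} (hα : 0 < α) (hα1 : α ≤ 1) (hβ : 0 < β) :
    ∃ C : ℝ, ∀ᶠ x : ℕ in atTop, ∀ y k a : ℕ, (x : ℝ) ^ β ≤ y → y ≤ x → 0 < k →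
      (k : ℝ) ≤ (y : ℝ) ^ (1 - α) → a.Coprime k →
      ∑ n ∈ window x y k a, f n ≤
        C * (y / ((k.totient : ℕ) * Real.log x) * Real.exp (primeSum f k x)) := by
  obtain ⟨A, hA1, hA⟩ := hf.primePow
  obtain ⟨θ, hθ⟩ : ∃ θ : ℝ, θ = α / 20 := ⟨_, rfl⟩
  have hθ0 : 0 < θ := hθ ▸ by positivity
  obtain ⟨L, hL⟩ : ∃ L : ℝ, L = 1 / (θ * β) := ⟨_, rfl⟩
  have hL0 : 0 < L := hL ▸ by positivity
  obtain ⟨K, hK⟩ : ∃ K : ℕ, K = ⌈L⌉₊ := ⟨_, rfl⟩
  obtain ⟨B1, hB1⟩ := hf.growth 1 one_pos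
  have hB : ∀ n : ℕ, 0 < n → f n ≤ |B1| * n := fun n hn => (hB1 n hn).trans (by
    rw [Real.rpow_one]; exact mul_le_mul_of_nonneg_right (le_abs_self B1) (Nat.cast_nonneg n))
  obtain ⟨B, hBε⟩ := hf.growth (1 / (16 * L)) (by positivity)
  obtain ⟨C1, hC1, h1⟩ := exists_classOne_le hf hB
  obtain ⟨C3, Q0, hC3, hQ0, h3⟩ := exists_classThree_le hf hA1 (abs_nonneg B1) hB K
  obtain ⟨C4, hC4, h4⟩ := exists_sum_le shiuClass_one ((1 / 4 : ℝ) * Real.log Q0)
  obtain ⟨M, hM⟩ : ∃ M : ℝ, M = A ^ (4 * K) * (C1 + 2 * |B1|) + |B| * 3 * 66 * 8 + 2 * C3 +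
    |B| * 3 * (C4 * Real.exp Q0) * 16 := ⟨_, rfl⟩
  refine ⟨M * L, ?_⟩
  filter_upwards [((tendsto_rpow_atTop (mul_pos hθ0 hβ)).comp
    tendsto_natCast_atTop_atTop).eventually_ge_atTop 256, eventually_ge_atTop 2] with x hx hx2
  intro y k a hxy hyx hk hky ha
  simp only [Function.comp_apply] at hx
  have hX : (2 : ℝ) ≤ x := Nat.ofNat_le_cast.2 hx2
  have hx0 : (0 : ℝ) < x := by linarith
  have hy1 : (1 : ℝ) ≤ y := (Real.one_le_rpow (by linarith) hβ.le).trans hxy
  have hy0 : (0 : ℝ) < y := by linarith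
  obtain ⟨z, hz⟩ : ∃ z : ℝ, z = (y : ℝ) ^ θ := ⟨_, rfl⟩
  have hzl : (x : ℝ) ^ (θ * β) ≤ z := by
    rw [hz, mul_comm θ, Real.rpow_mul hx0.le]
    exact Real.rpow_le_rpow (by positivity) hxy hθ0.le
  have hz256 : 256 ≤ z := hx.trans hzl
  have hz0 : 0 < z := by linarith
  have hzx : z ≤ x := hz ▸ ((Real.rpow_le_rpow_of_exponent_le hy1
    (show θ ≤ 1 by linarith)).trans_eq (Real.rpow_one _)).trans (Nat.cast_le.2 hyx)
  have hlz : 0 < Real.log z := Real.log_pos (by linarith)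
  have hlx : Real.log x ≤ L * Real.log z := by
    have := Real.log_le_log (Real.rpow_pos_of_pos hx0 _) hzl
    rw [Real.log_rpow hx0] at this
    rw [hL, one_div_mul_eq_div, le_div_iff₀ (mul_pos hθ0 hβ)]
    linarith
  have hxz : (x : ℝ) ≤ z ^ L := by
    rw [← Real.log_le_log_iff hx0 (Real.rpow_pos_of_pos hz0 _), Real.log_rpow hz0]
    exact hlx
  have hxK : (x : ℝ) ≤ z ^ K := hxz.trans (by
    rw [← Real.rpow_natCast]
    exact Real.rpow_le_rpow_of_exponent_le (by linarith) (hK ▸ Nat.le_ceil L))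
  obtain ⟨T, hT⟩ : ∃ T : ℝ, T = |B| * z ^ (1 / 16 : ℝ) := ⟨_, rfl⟩
  have hT0 : 0 ≤ T := hT ▸ by positivity
  have hfT : ∀ n ∈ window x y k a, f n ≤ T := fun n hn => by
    obtain ⟨hn0, hnx⟩ := mem_Ioc.1 (mem_filter.1 hn).1
    refine (hBε n (by omega)).trans (hT ▸ ?_)
    refine mul_le_mul (le_abs_self B) ?_ (by positivity) (abs_nonneg B)
    refine (Real.rpow_le_rpow (Nat.cast_nonneg n) ((Nat.cast_le.2 hnx).trans hxz)
      (by positivity)).trans_eq ?_
    rw [← Real.rpow_mul hz0.le]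
    congr 1
    field_simp
  have hk0 : (0 : ℝ) < k := Nat.cast_pos.2 hk
  have htot : (0 : ℝ) < (k.totient : ℕ) := Nat.cast_pos.2 (Nat.totient_pos.2 hk)
  obtain ⟨R, hR⟩ : ∃ R : ℝ, R = (y : ℝ) / k := ⟨_, rfl⟩
  have hR20 : z ^ 20 ≤ R := by
    rw [hR, le_div_iff₀ hk0, hz, ← Real.rpow_mul_natCast hy0.le]
    refine (mul_le_mul_of_nonneg_left hky (by positivity)).trans_eq ?_
    rw [← Real.rpow_add hy0, hθ]
    norm_num
  have hR0 : 0 ≤ R := hR ▸ by positivity
  have hkb : ∀ b : ℕ, (b : ℝ) ≤ z → k * b ≤ y := fun b hb => by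
    have h : (k : ℝ) * b ≤ y := by
      rw [mul_comm, ← le_div_iff₀ hk0, ← hR]
      exact hb.trans ((le_self_pow₀ (by linarith) (by norm_num)).trans hR20)
    exact_mod_cast h
  obtain ⟨U, hU⟩ : ∃ U : ℝ, U = y / ((k.totient : ℕ) * Real.log z) *
    Real.exp (primeSum f k x) := ⟨_, rfl⟩
  have hRU : R / Real.log z ≤ U := by
    rw [hU, hR]
    refine le_trans ?_ (le_mul_of_one_le_right (by positivity)
      (Real.one_le_exp (primeSum_nonneg hf k x)))
    rw [div_div]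
    refine div_le_div_of_nonneg_left (Nat.cast_nonneg y) (mul_pos htot hlz) ?_
    exact mul_le_mul_of_nonneg_right (Nat.cast_le.2 (Nat.totient_le k)) hlz.le
  have hU0 : 0 ≤ U := (div_nonneg hR0 hlz.le).trans hRU
  have hpow : ∀ j : ℕ, j ≤ 19 → z ^ j ≤ U := fun j hj => by
    refine le_trans ?_ hRU
    rw [le_div_iff₀ hlz]
    refine le_trans (mul_le_mul (pow_le_pow_right₀ (by linarith) hj)
      ((Real.log_le_sub_one_of_pos hz0).trans (by linarith : z - 1 ≤ z)) hlz.le (by positivity)) ?_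
    rw [← pow_succ]
    exact hR20
  have hneg : ∀ e : ℝ, 0 < e → R * z ^ (-e) ≤ 1 / e * U := fun e he => by
    refine le_trans ?_ (mul_le_mul_of_nonneg_left hRU (one_div_pos.2 he).le)
    rw [Real.rpow_neg hz0.le, ← div_eq_mul_inv, one_div_mul_eq_div, div_div,
      div_le_div_iff₀ (Real.rpow_pos_of_pos hz0 e) (mul_pos hlz he)]
    refine mul_le_mul_of_nonneg_left ?_ hR0
    have := Real.log_le_rpow_div hz0.le he
    rwa [le_div_iff₀ he] at this
  have b1 : A ^ (4 * K) * classOne f x y k a z ≤ A ^ (4 * K) * (C1 + 2 * |B1|) * U := by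
    rw [mul_assoc]
    refine mul_le_mul_of_nonneg_left ((h1 x y k a z hz256 hzx hk).trans ?_) (by positivity)
    rw [add_mul, ← hU]
    gcongr
    exact hpow 8 (by norm_num)
  have b3 : classThree f x y k a z A K Q0 ≤ 2 * C3 * U := by
    refine (h3 x y k a z hz256 hzx hk).trans ?_
    rw [← hU, two_mul, add_mul]
    gcongr
    exact hpow 10 (by norm_num)
  have b2 : T * ∑ m ∈ midPowers z, (#((window x y k a).filter (m ∣ ·)) : ℝ) ≤
      |B| * 3 * 66 * 8 * U := by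
    have h : ∑ m ∈ midPowers z, (#((window x y k a).filter (m ∣ ·)) : ℝ) ≤
        66 * z ^ (5 / 16 : ℝ) * (3 * R / Real.sqrt z) := by
      refine (sum_le_sum (g := fun _ => 3 * R / Real.sqrt z) fun m hm => ?_).trans ?_
      · rw [ErdosDivisor.midPowers, mem_filter] at hm
        obtain ⟨-, hm1, hm2⟩ := hm
        have hm0 : (0 : ℝ) < m := (Real.sqrt_nonneg z).trans_lt hm1
        have hmz : (m : ℝ) ≤ z := hm2.trans ((Real.rpow_le_rpow_of_exponent_le (by linarith)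
          (by norm_num)).trans_eq (Real.rpow_one z))
        refine (card_mult_window_le hk ha (Nat.cast_pos.1 hm0) (hkb m hmz)).trans ?_
        rw [mul_div_assoc 3 (y : ℝ), ← hR]
        exact div_le_div_of_nonneg_left (by positivity) (Real.sqrt_pos.2 hz0) hm1.le
      · rw [sum_const, nsmul_eq_mul]
        exact mul_le_mul_of_nonneg_right (card_midPowers_le hz256) (by positivity)
    refine (mul_le_mul_of_nonneg_left h hT0).trans ?_
    calc T * (66 * z ^ (5 / 16 : ℝ) * (3 * R / Real.sqrt z))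
        = |B| * 3 * 66 * (R * (z ^ (1 / 16 : ℝ) * z ^ (5 / 16 : ℝ) / Real.sqrt z)) := by
          rw [hT]; ring
      _ = |B| * 3 * 66 * (R * z ^ (-(1 / 8) : ℝ)) := by
          rw [← Real.rpow_add hz0, Real.sqrt_eq_rpow, ← Real.rpow_sub hz0]
          norm_num
      _ ≤ |B| * 3 * 66 * (1 / (1 / 8) * U) := by
          exact mul_le_mul_of_nonneg_left (hneg (1 / 8) (by norm_num)) (by positivity)
      _ = _ := by ring
  have b4 : T * ∑ b ∈ smoothParts z Q0 k, (#((window x y k a).filter (b ∣ ·)) : ℝ) ≤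
      |B| * 3 * (C4 * Real.exp Q0) * 16 * U := by
    have h : ∑ b ∈ smoothParts z Q0 k, (#((window x y k a).filter (b ∣ ·)) : ℝ) ≤
        3 * R * z ^ (-(1 / 8) : ℝ) * (C4 * Real.exp Q0) := by
      have hmem : ∀ b ∈ smoothParts z Q0 k, 1 ≤ b ∧ (b : ℝ) ≤ z ∧ b.Coprime k ∧
          Real.sqrt z < b ∧ ∀ p ∈ b.primeFactors, (p : ℝ) ≤ Q0 := fun b hb => by
        obtain ⟨h1, h2, h3⟩ := mem_filter.1 hb
        obtain ⟨h4, h5, h6⟩ := (mem_smallParts hz0.le).1 h1
        exact ⟨h4, h5, h6, h2, h3⟩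
      refine (sum_le_sum (g := fun b : ℕ => 3 * R * z ^ (-(1 / 8) : ℝ) *
        ((1 : ℝ) * (b : ℝ) ^ (1 / 4 : ℝ) / b)) fun b hb => ?_).trans ?_
      · obtain ⟨hb1, hbz, -, hbs, -⟩ := hmem b hb
        refine (card_mult_window_le hk ha hb1 (hkb b hbz)).trans ?_
        have h1 : 1 ≤ z ^ (-(1 / 8) : ℝ) * (b : ℝ) ^ (1 / 4 : ℝ) := by
          rw [Real.rpow_neg hz0.le, inv_mul_eq_div, one_le_div (Real.rpow_pos_of_pos hz0 _),
            show (1 / 8 : ℝ) = 1 / 2 * (1 / 4) by norm_num, Real.rpow_mul hz0.le,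
            ← Real.sqrt_eq_rpow]
          exact Real.rpow_le_rpow (Real.sqrt_nonneg z) hbs.le (by norm_num)
        refine (le_mul_of_one_le_right (by positivity) h1).trans_eq ?_
        rw [hR]
        ring
      · rw [← mul_sum]
        refine mul_le_mul_of_nonneg_left ((h4 k Q0 hQ0 (1 / 4) (by norm_num) le_rfl le_rfl _
          fun b hb => ?_).trans (mul_le_mul_of_nonneg_left (Real.exp_le_exp.2 ?_) hC4.le))
            (by positivity)
        · obtain ⟨h1, -, h2, -, h3⟩ := hmem b hb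
          exact ⟨by omega, h2, fun p hp => Nat.cast_le.1 (h3 p hp)⟩
        · rw [primeSum]
          refine (sum_le_sum (g := fun _ => (1 : ℝ)) fun p hp => ?_).trans ?_
          · exact div_le_one_of_le₀
              (Nat.one_le_cast.2 (mem_primesUpTo.1 (mem_filter.1 hp).1).1.one_le)
              (Nat.cast_nonneg p)
          · rw [sum_const, nsmul_eq_mul, mul_one]
            refine Nat.cast_le.2 ((card_filter_le _ _).trans ((card_filter_le _ _).trans ?_))
            rw [Nat.card_Icc, Nat.add_sub_cancel]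
    refine (mul_le_mul_of_nonneg_left h hT0).trans ?_
    calc T * (3 * R * z ^ (-(1 / 8) : ℝ) * (C4 * Real.exp Q0))
        = |B| * 3 * (C4 * Real.exp Q0) * (R * (z ^ (1 / 16 : ℝ) * z ^ (-(1 / 8) : ℝ))) := by
          rw [hT]; ring
      _ = |B| * 3 * (C4 * Real.exp Q0) * (R * z ^ (-(1 / 16) : ℝ)) := by
          rw [← Real.rpow_add hz0]
          norm_num
      _ ≤ |B| * 3 * (C4 * Real.exp Q0) * (1 / (1 / 16) * U) := by
          exact mul_le_mul_of_nonneg_left (hneg (1 / 16) (by norm_num)) (by positivity)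
      _ = _ := by ring
  have hsum : ∑ n ∈ window x y k a, f n ≤ M * U := by
    refine (sum_window_le hf hA1 hA ha (by linarith) hQ0 hxK hT0 hfT).trans ?_
    rw [hM, add_mul, add_mul, add_mul]
    exact add_le_add (add_le_add (add_le_add b1 b2) b3) b4
  refine hsum.trans ?_
  have hM0 : 0 ≤ M := by rw [hM]; positivity
  rw [mul_assoc M L]
  refine mul_le_mul_of_nonneg_left ?_ hM0
  rw [hU, ← mul_assoc L]
  refine mul_le_mul_of_nonneg_right ?_ (Real.exp_pos _).le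
  rw [mul_div_assoc', div_le_div_iff₀ (mul_pos htot hlz)
    (mul_pos htot (Real.log_pos (by linarith)))]
  have := mul_le_mul_of_nonneg_left hlx (mul_nonneg hy0.le htot.le)
  linarith

end FA.ShiuBrun
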