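import Fermat.Agent.ShiuBrun.Euler
import Fermat.Agent.PrimesMinusOne.BrunTitchmarsh

/-!
# The sieve in short intervals and progressions

In `(M, M + H]` the `m ≡ c (mod k)` without prime factor `< w` number at most
`2 H / (φ k log w) + w ^ 6`; so do, after scaling by `b`, the `n ∈ (x - y, x]` divisible by `b`.
-/

set_option autoImplicit false

noncomputable section

namespace FA.ShiuBrun

open Finset ArithmeticFunction BoundingSieve
open FA.GoldbachSchnirelmann (selbergDenom siftedSum_le selbergDenom_pos)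
open FA.PrimesMinusOne (classPrimes classSieve sievePrimes squarefree_classPrimes
  classPrimes_coprime invFun invFun_apply invFun_isMultiplicative le_selbergDenom)

theorem abs_card_progression_sub_le {q : ℕ} (hq : 0 < q) (M H r : ℕ) :
    |(((Ioc M (M + H)).filter fun n => n ≡ r [MOD q]).card : ℝ) - (H : ℝ) / q| ≤ 1 := by
  have h := Nat.Ioc_filter_modEq_card M (M + H) hq r
  obtain ⟨u, hu⟩ : ∃ u : ℚ, u = (((M + H : ℕ) : ℚ) - r) / q := ⟨_, rfl⟩
  obtain ⟨v, hv⟩ : ∃ v : ℚ, v = ((M : ℚ) - r) / q := ⟨_, rfl⟩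
  rw [← hu, ← hv] at h
  have huv : u - v = (H : ℚ) / q := by
    rw [hu, hv, ← sub_div]
    push_cast
    ring
  have hle : ⌊v⌋ ≤ ⌊u⌋ := by
    refine Int.floor_mono ?_
    have : (0 : ℚ) ≤ (H : ℚ) / q := by positivity
    linarith
  rw [max_eq_left (sub_nonneg.2 hle)] at h
  have h2 : |(((Ioc M (M + H)).filter fun n => n ≡ r [MOD q]).card : ℚ) - (H : ℚ) / q| ≤ 1 := by
    rw [← Int.cast_natCast (R := ℚ) (((Ioc M (M + H)).filter _).card), h, Int.cast_sub, ← huv,
      abs_le]
    constructor <;>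
      linarith [Int.floor_le u, Int.lt_floor_add_one u, Int.floor_le v, Int.lt_floor_add_one v]
  have h3 := (Rat.cast_le (K := ℝ)).2 h2
  push_cast at h3
  exact h3

/-- The sieve of a class modulo `q` in `(M, M + H]`. -/
def intervalSieve (M H q a Z : ℕ) : BoundingSieve where
  support := (Ioc M (M + H)).filter fun n => n ≡ a [MOD q]
  prodPrimes := classPrimes q Z
  prodPrimes_squarefree := squarefree_classPrimes q Z
  weights _ := 1
  weights_nonneg _ := zero_le_one
  totalMass := (H : ℝ) / q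
  nu := invFun
  nu_mult := invFun_isMultiplicative
  nu_pos_of_prime p hp _ := by
    rw [invFun_apply]
    exact inv_pos.2 (Nat.cast_pos.2 hp.pos)
  nu_lt_one_of_prime p hp _ := by
    rw [invFun_apply]
    exact inv_lt_one_of_one_lt₀ (Nat.one_lt_cast.2 hp.one_lt)

theorem intervalSieve_rem {M H q a Z d : ℕ} (hq : 0 < q)
    (hd : d ∈ Nat.divisors (intervalSieve M H q a Z).prodPrimes) :
    |(intervalSieve M H q a Z).rem d| ≤ d := by
  have hd1 := Nat.pos_of_mem_divisors hd
  have hco : q.Coprime d := Nat.Coprime.coprime_dvd_right (Nat.dvd_of_mem_divisors hd)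
    (classPrimes_coprime q Z).symm
  obtain ⟨r, hr1, hr2⟩ := Nat.chineseRemainder hco a 0
  have e : (((Ioc M (M + H)).filter fun n => n ≡ a [MOD q]).filter (d ∣ ·)) =
      (Ioc M (M + H)).filter fun n => n ≡ r [MOD q * d] := by
    rw [filter_filter]
    refine filter_congr fun n _ => ?_
    rw [← Nat.modEq_and_modEq_iff_modEq_mul hco, ← Nat.modEq_zero_iff_dvd]
    exact ⟨fun h => ⟨h.1.trans hr1.symm, h.2.trans hr2.symm⟩,
      fun h => ⟨h.1.trans hr1, h.2.trans hr2⟩⟩
  have hm : (intervalSieve M H q a Z).multSum d =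
      (((Ioc M (M + H)).filter fun n => n ≡ r [MOD q * d]).card : ℝ) := by
    simp only [multSum, intervalSieve]
    rw [sum_boole, e]
  rw [rem, hm]
  refine le_trans (le_trans (le_of_eq ?_)
    (abs_card_progression_sub_le (Nat.mul_pos hq hd1) M H r)) (Nat.one_le_cast.2 hd1)
  congr 2
  simp only [intervalSieve, invFun_apply]
  push_cast
  ring

/-- The `m ∈ (M, M + H]` in the class with no prime factor `< w`. -/
def roughClass (M H q a : ℕ) (w : ℝ) : Finset ℕ :=
  (Ioc M (M + H)).filter fun m => m ≡ a [MOD q] ∧ ∀ p ∈ m.primeFactors, w ≤ p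

theorem card_roughClass_le {M H q a : ℕ} (hq : 0 < q) {w : ℝ} (hw : 2 ≤ w) :
    (#(roughClass M H q a w) : ℝ) ≤ 2 * H / ((q.totient : ℕ) * Real.log w) + w ^ 6 := by
  obtain ⟨Z, hZ⟩ : ∃ Z, Z = ⌈w⌉₊ - 1 := ⟨_, rfl⟩
  have hce : 2 ≤ ⌈w⌉₊ := Nat.lt_ceil.2 (by push_cast; linarith)
  have hwZ : w ≤ (Z : ℝ) + 1 := by
    refine (Nat.le_ceil w).trans ?_
    rw [hZ, Nat.cast_sub (show 1 ≤ ⌈w⌉₊ by omega)]
    push_cast
    linarith
  have hZw : (Z : ℝ) < w := Nat.lt_ceil.1 (by omega)
  have hZ1 : 1 ≤ Z := by omega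
  have hsub : (#(roughClass M H q a w) : ℝ) ≤ (intervalSieve M H q a Z).siftedSum := by
    simp only [siftedSum, intervalSieve]
    rw [sum_boole]
    refine Nat.cast_le.2 (card_le_card fun m hm => ?_)
    simp only [roughClass, mem_filter, mem_Ioc] at hm ⊢
    refine ⟨⟨hm.1, hm.2.1⟩, Nat.Coprime.prod_left fun l hl => ?_⟩
    obtain ⟨hlZ, hlp, -⟩ := mem_filter.1 hl
    refine hlp.coprime_iff_not_dvd.2 fun hlm => ?_
    have h1 := hm.2.2 l (Nat.mem_primeFactors.2 ⟨hlp, hlm, by omega⟩)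
    have h2 : (l : ℝ) ≤ Z := Nat.cast_le.2 (mem_Icc.1 hlZ).2
    linarith
  have hnu : ∀ d ∈ Nat.divisors (intervalSieve M H q a Z).prodPrimes,
      1 / (d : ℝ) ≤ (intervalSieve M H q a Z).nu d := fun d _ => by
    simp [intervalSieve, invFun_apply]
  have hs := siftedSum_le (intervalSieve M H q a Z) Z hZ1
    (fun d hd => intervalSieve_rem hq hd) hnu
  have hS0 := selbergDenom_pos (intervalSieve M H q a Z) Z hZ1
  have hS : Real.log ((Z : ℝ) + 1) / 2 ≤
      (q : ℝ) / (q.totient : ℕ) * selbergDenom (intervalSieve M H q a Z) Z :=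
    le_selbergDenom (N := H) (a := a) (z := Z) hq
  have htot : (0 : ℝ) < (q.totient : ℕ) := Nat.cast_pos.2 (Nat.totient_pos.2 hq)
  have hq0 : (0 : ℝ) < q := Nat.cast_pos.2 hq
  have hlw : 0 < Real.log w := Real.log_pos (by linarith)
  have hmain : (intervalSieve M H q a Z).totalMass / selbergDenom (intervalSieve M H q a Z) Z ≤
      2 * H / ((q.totient : ℕ) * Real.log w) := by
    rw [show (intervalSieve M H q a Z).totalMass = (H : ℝ) / q from rfl,
      div_div, div_le_div_iff₀ (mul_pos hq0 hS0) (mul_pos htot hlw)]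
    have h1 := (div_le_div_of_nonneg_right (Real.log_le_log (by linarith) hwZ)
      zero_le_two).trans hS
    rw [div_mul_eq_mul_div, le_div_iff₀ htot] at h1
    have := mul_le_mul_of_nonneg_left h1 (Nat.cast_nonneg (α := ℝ) H)
    linarith
  have hpow : (Z : ℝ) ^ 6 ≤ w ^ 6 := pow_le_pow_left₀ (Nat.cast_nonneg Z) hZw.le 6
  linarith

/-- The `n ∈ (x - y, x]` in the class of `a` modulo `k`. -/
def window (x y k a : ℕ) : Finset ℕ := (Ioc (x - y) x).filter fun n => n ≡ a [MOD k]

theorem coprime_of_mem_window {x y k a n : ℕ} (ha : a.Coprime k) (hn : n ∈ window x y k a) :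
    n.Coprime k := by
  have h := (mem_filter.1 hn).2
  rw [Nat.Coprime, h.gcd_eq]
  exact ha

/-- The multiples of `b` in the window with no prime `< w` in the quotient. -/
def roughMult (x y k a : ℕ) (w : ℝ) (b : ℕ) : Finset ℕ :=
  (window x y k a).filter fun n => b ∣ n ∧ ∀ p ∈ (n / b).primeFactors, w ≤ p

theorem quotient_window {x y k a b : ℕ} (hb : 0 < b) (hbk : b.Coprime k) :
    ∃ M H c : ℕ, (H : ℝ) ≤ (y : ℝ) / b + 1 ∧ ∀ n ∈ window x y k a, b ∣ n →
      n / b ∈ (Ioc M (M + H)).filter fun m => m ≡ c [MOD k] := by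
  obtain ⟨M, hM⟩ : ∃ M, M = (x - y) / b := ⟨_, rfl⟩
  obtain ⟨H, hH⟩ : ∃ H, H = x / b - M := ⟨_, rfl⟩
  have hHy : H ≤ y / b + 1 := by
    rw [hH, hM]
    have h1 : x / b ≤ (x - y + y) / b := Nat.div_le_div_right (by omega)
    have h2 : (x - y + y) / b ≤ (x - y) / b + y / b + 1 := by
      rw [Nat.add_div hb]
      split_ifs <;> simp
    exact Nat.sub_le_iff_le_add'.2 ((h1.trans h2).trans_eq (add_assoc _ _ _))
  have hHR : (H : ℝ) ≤ (y : ℝ) / b + 1 :=
    (Nat.cast_le.2 hHy).trans (by push_cast; linarith [Nat.cast_div_le (α := ℝ) (m := y) (n := b)])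
  rcases ((window x y k a).filter (b ∣ ·)).eq_empty_or_nonempty with he | ⟨n0, hn0⟩
  · refine ⟨M, H, 0, hHR, fun n hn hbn => ?_⟩
    exact absurd (mem_filter.2 ⟨hn, hbn⟩) (he ▸ notMem_empty n)
  refine ⟨M, H, n0 / b, hHR, fun n hn hbn => ?_⟩
  obtain ⟨hn0w, hbn0⟩ := mem_filter.1 hn0
  simp only [window, mem_filter, mem_Ioc] at hn hn0w
  refine mem_filter.2 ⟨mem_Ioc.2 ⟨?_, ?_⟩, ?_⟩
  · rw [hM, Nat.div_lt_iff_lt_mul hb, Nat.div_mul_cancel hbn]
    exact hn.1.1
  · have h1 : n / b ≤ x / b := Nat.div_le_div_right hn.1.2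
    have h2 : M ≤ x / b := hM ▸ Nat.div_le_div_right (by omega)
    omega
  · refine Nat.ModEq.cancel_left_of_coprime (c := b) hbk.symm ?_
    rw [Nat.mul_div_cancel' hbn, Nat.mul_div_cancel' hbn0]
    exact hn.2.trans hn0w.2.symm

/-- **The sieve in the window.** -/
theorem card_roughMult_le {x y k a b : ℕ} (hk : 0 < k) (hb : 0 < b)
    (hbk : b.Coprime k) {w : ℝ} (hw : 2 ≤ w) :
    (#(roughMult x y k a w b) : ℝ) ≤
      2 * y / b / ((k.totient : ℕ) * Real.log w) + 2 * w ^ 6 := by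
  obtain ⟨M, H, c, hH, hc⟩ := quotient_window (x := x) (y := y) (a := a) hb hbk
  have hcard : #(roughMult x y k a w b) ≤ #(roughClass M H k c w) := by
    refine card_le_card_of_injOn (fun n => n / b) (fun n hn => ?_) fun m hm n hn hmn => ?_
    · obtain ⟨hnw, hbn, hp⟩ := mem_filter.1 (mem_coe.1 hn)
      obtain ⟨h1, h2⟩ := mem_filter.1 (hc n hnw hbn)
      exact mem_coe.2 (mem_filter.2 ⟨h1, h2, hp⟩)
    · rw [← Nat.mul_div_cancel' (mem_filter.1 hm).2.1, ← Nat.mul_div_cancel' (mem_filter.1 hn).2.1,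
        show m / b = n / b from hmn]
  refine (Nat.cast_le.2 hcard).trans ((card_roughClass_le hk hw).trans ?_)
  have htot : (1 : ℝ) ≤ (k.totient : ℕ) := Nat.one_le_cast.2 (Nat.totient_pos.2 hk)
  have hlw : Real.log 2 ≤ Real.log w := Real.log_le_log two_pos hw
  have hl2 := Real.log_two_gt_d9
  have hd : 0 < ((k.totient : ℕ) : ℝ) * Real.log w := by
    have : 0 < Real.log w := by linarith
    positivity
  have h1 : 2 * (H : ℝ) / ((k.totient : ℕ) * Real.log w) ≤
      2 * y / b / ((k.totient : ℕ) * Real.log w) + 2 / ((k.totient : ℕ) * Real.log w) := by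
    rw [← add_div, mul_div_assoc 2 (y : ℝ)]
    exact div_le_div_of_nonneg_right (by linarith) hd.le
  have h2 : 2 / (((k.totient : ℕ) : ℝ) * Real.log w) ≤ 4 := by
    rw [div_le_iff₀ hd]
    nlinarith
  have h3 : (4 : ℝ) ≤ w ^ 6 := le_trans (by norm_num) (pow_le_pow_left₀ zero_le_two hw 6)
  linarith

/-- The multiples of `b` in the window. -/
theorem card_mult_window_le {x y k a b : ℕ} (hk : 0 < k) (ha : a.Coprime k) (hb : 0 < b)
    (hkb : k * b ≤ y) :
    (#((window x y k a).filter (b ∣ ·)) : ℝ) ≤ 3 * y / k / b := by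
  have hk0 : (0 : ℝ) < k := Nat.cast_pos.2 hk
  have hb0 : (0 : ℝ) < b := Nat.cast_pos.2 hb
  rcases em (b.Coprime k) with hbk | hbk
  · obtain ⟨M, H, c, hH, hc⟩ := quotient_window (x := x) (y := y) (a := a) hb hbk
    have hcard : #((window x y k a).filter (b ∣ ·)) ≤
        #((Ioc M (M + H)).filter fun m => m ≡ c [MOD k]) := by
      refine card_le_card_of_injOn (fun n => n / b) (fun n hn => ?_) fun m hm n hn hmn => ?_
      · obtain ⟨hnw, hbn⟩ := mem_filter.1 (mem_coe.1 hn)
        exact mem_coe.2 (hc n hnw hbn)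
      · rw [← Nat.mul_div_cancel' (mem_filter.1 hm).2, ← Nat.mul_div_cancel' (mem_filter.1 hn).2,
          show m / b = n / b from hmn]
    have h := (abs_le.1 (abs_card_progression_sub_le hk M H c)).2
    have h1 : (H : ℝ) / k ≤ (y : ℝ) / k / b + 1 := by
      refine (div_le_div_of_nonneg_right hH hk0.le).trans ?_
      rw [add_div, div_div, div_div, mul_comm (b : ℝ)]
      gcongr
      exact div_le_one_of_le₀ (Nat.one_le_cast.2 hk) hk0.le
    have h2 : (1 : ℝ) ≤ (y : ℝ) / k / b := by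
      rw [div_div, one_le_div (by positivity)]
      exact_mod_cast hkb
    have := (Nat.cast_le (α := ℝ)).2 hcard
    rw [mul_div_assoc 3, mul_div_assoc 3]
    linarith
  · rw [show (window x y k a).filter (b ∣ ·) = ∅ from filter_false_of_mem fun n hn hbn => hbk
      ((coprime_of_mem_window ha hn).coprime_dvd_left hbn), card_empty, Nat.cast_zero]
    positivity

end FA.ShiuBrun
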