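import Fermat.Agent.ErdosDivisor.Split
import Mathlib.Data.Nat.Factorization.Induction

/-!
# Shiu's class of functions and the splitting

A nonnegative multiplicative `f` with `f (p ^ l) ≤ A ^ l` and `f n ≪ n ^ ε`. An integer is `b d`
with `b ≤ z` and `d` made of large primes, unless it has a large power of a small prime or a large
very smooth divisor.
-/

set_option autoImplicit false

noncomputable section

namespace FA.ShiuBrun

open Finset
open FA.ErdosDivisor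

/-- Shiu's class. -/
structure ShiuClass (f : ℕ → ℝ) : Prop where
  nonneg : ∀ n, 0 ≤ f n
  one : f 1 = 1
  mul : ∀ m n : ℕ, m.Coprime n → f (m * n) = f m * f n
  primePow : ∃ A : ℝ, 1 ≤ A ∧ ∀ p l : ℕ, p.Prime → f (p ^ l) ≤ A ^ l
  growth : ∀ ε : ℝ, 0 < ε → ∃ B : ℝ, ∀ n : ℕ, 0 < n → f n ≤ B * (n : ℝ) ^ ε

/-- `f b ≤ A ^ k` when `b < w ^ (k + 1)` has all its primes `≥ w`. -/
theorem le_pow_of_rough {f : ℕ → ℝ} (hf : ShiuClass f) {A : ℝ} (hA1 : 1 ≤ A)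
    (hA : ∀ p l : ℕ, p.Prime → f (p ^ l) ≤ A ^ l) {b k : ℕ} (hb : b ≠ 0) {w : ℝ} (hw : 1 < w)
    (hp : ∀ p ∈ b.primeFactors, w ≤ p) (hk : (b : ℝ) < w ^ (k + 1)) : f b ≤ A ^ k := by
  obtain ⟨S, hS⟩ : ∃ S, S = ∑ p ∈ b.primeFactors, b.factorization p := ⟨_, rfl⟩
  have h1 : w ^ S ≤ (b : ℝ) := by
    conv_rhs => rw [Nat.prod_primeFactors_pow_factorization hb]
    rw [hS, ← prod_pow_eq_pow_sum, Nat.cast_prod]
    refine prod_le_prod (fun p _ => pow_nonneg (by linarith) _) fun p hpb => ?_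
    rw [Nat.cast_pow]
    exact pow_le_pow_left₀ (by linarith) (hp p hpb) _
  have hSk : S ≤ k := Nat.lt_succ_iff.1 ((pow_lt_pow_iff_right₀ hw).1 (h1.trans_lt hk))
  rw [Nat.multiplicative_factorization f hf.mul hf.one hb, Finsupp.prod, Nat.support_factorization]
  refine (prod_le_prod (fun p _ => hf.nonneg _) fun p hpb =>
    hA p _ (Nat.prime_of_mem_primeFactors hpb)).trans ?_
  rw [prod_pow_eq_pow_sum, ← hS]
  exact pow_le_pow_right₀ hA1 hSk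

/-- **The classes.** -/
theorem split_cases {v : ℕ} (hv : v ≠ 0) {z : ℝ} (hz : 1 < z) {K Q0 : ℕ} (hQ0 : 1 < Q0)
    (hvz : (v : ℝ) ≤ z ^ K) :
    (∃ b d : ℕ, b * d = v ∧ b.Coprime d ∧ (b : ℝ) ≤ z ∧
      (∀ p ∈ d.primeFactors, z ^ (1 / 4 : ℝ) ≤ p) ∧
      (d : ℝ) < (z ^ (1 / 4 : ℝ)) ^ (4 * K + 1)) ∨
    (∃ m ∈ midPowers z, m ∣ v) ∨
    (∃ r b d : ℕ, 1 ≤ r ∧ (r : ℝ) * Real.log Q0 ≤ Real.log z ∧ b * d = v ∧ b.Coprime d ∧
      (b : ℝ) ≤ z ∧ Real.sqrt z < b ∧ (∀ p ∈ b.primeFactors, (p : ℝ) ≤ z ^ ((1 : ℝ) / r)) ∧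
      (∀ p ∈ d.primeFactors, z ^ ((1 : ℝ) / (r + 1)) ≤ p) ∧
      (d : ℝ) < (z ^ ((1 : ℝ) / (r + 1))) ^ (K * (r + 1) + 1)) ∨
    (∃ b : ℕ, (b : ℝ) ≤ z ∧ Real.sqrt z < b ∧ (∀ p ∈ b.primeFactors, p ≤ Q0) ∧ b ∣ v) := by
  have hz0 : 0 < z := by linarith
  obtain ⟨u, hu⟩ : ∃ u : ℝ, u = z ^ (1 / 4 : ℝ) := ⟨_, rfl⟩
  have hu1 : 1 < u := hu ▸ Real.one_lt_rpow hz (by norm_num)
  rcases exists_split hv hz.le with hle | ⟨q, hq, hqv, hsm, hbig⟩
  · refine Or.inl ⟨v, 1, mul_one v, Nat.coprime_one_right v, hle, by simp, ?_⟩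
    rw [← hu, Nat.cast_one]
    exact one_lt_pow₀ hu1 (Nat.succ_ne_zero _)
  obtain ⟨b, hb⟩ : ∃ b, b = smoothPart v q := ⟨_, rfl⟩
  obtain ⟨d, hd⟩ : ∃ d, d = roughPart v q := ⟨_, rfl⟩
  rw [← hb] at hsm hbig
  have hbd : b * d = v := hb ▸ hd ▸ smoothPart_mul_roughPart hv q
  have hco : b.Coprime d := hb ▸ hd ▸ coprime_smoothPart_roughPart v q
  have hdq : ∀ p ∈ d.primeFactors, (q : ℝ) ≤ p := fun p hp => Nat.cast_le.2
    (le_of_dvd_roughPart (Nat.prime_of_mem_primeFactors hp) (hd ▸ Nat.dvd_of_mem_primeFactors hp))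
  have hdv : (d : ℝ) ≤ z ^ K := le_trans (Nat.cast_le.2 (Nat.le_of_dvd (Nat.pos_of_ne_zero hv)
    ⟨b, by rw [mul_comm]; exact hbd.symm⟩)) hvz
  rcases le_or_gt u q with hqu | hqu
  · refine Or.inl ⟨b, d, hbd, hco, hsm, fun p hp => hu ▸ hqu.trans (hdq p hp), ?_⟩
    refine hdv.trans_lt ((le_of_eq ?_).trans_lt (hu ▸ pow_lt_pow_right₀ hu1 (Nat.lt_succ_self _)))
    rw [pow_mul, ← Real.rpow_natCast (z ^ (1 / 4 : ℝ)) 4, ← Real.rpow_mul hz0.le]
    norm_num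
  refine Or.inr ?_
  have hq2 : (2 : ℝ) ≤ q := Nat.ofNat_le_cast.2 hq.two_le
  rcases le_or_gt (b : ℝ) (Real.sqrt z) with hbz | hbz
  · refine Or.inl ?_
    have hqe : Real.sqrt z < (q : ℝ) ^ v.factorization q := by
      by_contra! hc
      have := mul_le_mul hbz hc (by positivity) (Real.sqrt_nonneg z)
      rw [Real.mul_self_sqrt hz0.le] at this
      linarith
    classical
    have hex : ∃ j : ℕ, Real.sqrt z < (q : ℝ) ^ j := ⟨_, hqe⟩
    obtain ⟨j, hj⟩ : ∃ j, j = Nat.find hex := ⟨_, rfl⟩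
    have hjb : Real.sqrt z < (q : ℝ) ^ j := hj ▸ Nat.find_spec hex
    have hje : j ≤ v.factorization q := hj ▸ Nat.find_le hqe
    have hj0 : 0 < j := by
      by_contra h0
      rw [Nat.eq_zero_of_not_pos h0, pow_zero] at hjb
      linarith [Real.one_le_sqrt.2 hz.le]
    have hjs : (q : ℝ) ^ (j - 1) ≤ Real.sqrt z :=
      not_lt.1 (Nat.find_min hex (show j - 1 < Nat.find hex by omega))
    have hjz : (q : ℝ) ^ j ≤ z ^ (3 / 4 : ℝ) := by
      rw [show j = j - 1 + 1 by omega, pow_succ]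
      refine (mul_le_mul hjs hqu.le (by linarith) (Real.sqrt_nonneg z)).trans_eq ?_
      rw [hu, Real.sqrt_eq_rpow, ← Real.rpow_add hz0]
      norm_num
    refine ⟨q ^ j, ?_, (pow_dvd_pow q hje).trans (Nat.ordProj_dvd v q)⟩
    rw [midPowers, mem_filter, mem_image, Nat.cast_pow]
    refine ⟨⟨(q, j), mem_product.2 ⟨mem_filter.2 ⟨mem_range.2 (Nat.lt_ceil.2 (hu ▸ hqu)), hq⟩,
      mem_range.2 (Nat.lt_succ_of_le (Nat.le_floor ?_))⟩, rfl⟩, hjb, hjz⟩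
    rw [Real.le_logb_iff_rpow_le one_lt_two hz0, Real.rpow_natCast]
    exact (pow_le_pow_left₀ zero_le_two hq2 j).trans
      (hjz.trans ((Real.rpow_le_rpow_of_exponent_le hz.le (by norm_num)).trans_eq
        (Real.rpow_one z)))
  refine Or.inr ?_
  have hbq : ∀ p ∈ b.primeFactors, p < q := fun p hp =>
    lt_of_dvd_smoothPart (Nat.prime_of_mem_primeFactors hp) (hb ▸ Nat.dvd_of_mem_primeFactors hp)
  rcases le_or_gt Q0 q with hQq | hQq
  · refine Or.inl ?_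
    have hlq : 0 < Real.log q := Real.log_pos (by linarith)
    have hlz : 0 < Real.log z := Real.log_pos hz
    have hqz : (q : ℝ) < z := hqu.trans_le (hu ▸ (Real.rpow_le_rpow_of_exponent_le hz.le
      (by norm_num)).trans_eq (Real.rpow_one z))
    obtain ⟨r, hr⟩ : ∃ r, r = ⌊Real.log z / Real.log q⌋₊ := ⟨_, rfl⟩
    have hr1 : 1 ≤ r := hr ▸ Nat.le_floor (by
      rw [Nat.cast_one, one_le_div hlq]
      exact Real.log_le_log (by linarith) hqz.le)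
    have hrle : (r : ℝ) * Real.log q ≤ Real.log z := by
      rw [← le_div_iff₀ hlq, hr]
      exact Nat.floor_le (by positivity)
    have hrlt : Real.log z < ((r : ℝ) + 1) * Real.log q := by
      rw [← div_lt_iff₀ hlq, hr]
      exact Nat.lt_floor_add_one _
    have hr0 : (0 : ℝ) < r := Nat.cast_pos.2 hr1
    have hqy : (q : ℝ) ≤ z ^ ((1 : ℝ) / r) := by
      rw [Real.le_rpow_iff_log_le (by linarith) hz0, one_div_mul_eq_div, le_div_iff₀ hr0]
      linarith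
    have hwq : z ^ ((1 : ℝ) / (r + 1)) < q := by
      rw [Real.rpow_lt_iff_lt_log hz0 (by linarith), one_div_mul_eq_div,
        div_lt_iff₀ (by positivity)]
      linarith
    have hw1 : 1 < z ^ ((1 : ℝ) / (r + 1)) := Real.one_lt_rpow hz (by positivity)
    refine ⟨r, b, d, hr1, le_trans (mul_le_mul_of_nonneg_left (Real.log_le_log
      (Nat.cast_pos.2 (by omega)) (Nat.cast_le.2 hQq)) hr0.le) hrle, hbd, hco, hsm, hbz,
      fun p hp => le_trans (Nat.cast_le.2 (hbq p hp).le) hqy,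
      fun p hp => hwq.le.trans (hdq p hp), ?_⟩
    refine hdv.trans_lt ((le_of_eq ?_).trans_lt (pow_lt_pow_right₀ hw1 (Nat.lt_succ_self _)))
    rw [mul_comm K, pow_mul, ← Real.rpow_natCast (z ^ ((1 : ℝ) / (r + 1))) (r + 1),
      ← Real.rpow_mul hz0.le]
    push_cast
    rw [one_div_mul_cancel (by positivity), Real.rpow_one]
  · exact Or.inr ⟨b, hsm, hbz, fun p hp => by have := hbq p hp; omega, hbd ▸ dvd_mul_right b d⟩

end FA.ShiuBrun
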